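import Fermat.Agent.Specialization.Descent
import Fermat.Agent.GoodModel.Field

/-!
# Coordinates with the same branching in both characteristics

The genus through a tame coordinate branched over given values, unramified fibres from
automorphisms with distinct residues, and roots of functions with constant reduction on smooth
models.
-/

set_option autoImplicit false
set_option linter.style.haveILetI false
set_option linter.unusedSectionVars false

noncomputable section

namespace FLTAgent.DeligneSerre

open AlgebraicCurve FLTAgent.Curves Polynomial IntermediateField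
open FLTAgent.Specialization (ell ell_eq rGenus rBound rBound_nonneg)

section Curve

variable {K F : Type*} [Field K] [IsAlgClosed K] [Field F] [Algebra K F] [IsFunctionField K F]

/-- The ramification divisor of a tame coordinate determines the genus. -/
theorem two_rGenus_eq {x : F} (hx : Transcendental K x) [Algebra.IsSeparable K⟮x⟯ F]
    (htame : ∀ v : Place K F, ((ramIdx x v : ℤ) : K) ≠ 0) {R : Divisor K F}
    (hR : ∀ v, R v = ramIdx x v - 1) :
    Divisor.degree R = 2 * ((Module.finrank K⟮x⟯ F : ℤ) + rGenus K F - 1) := by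
  haveI := finiteDimensional_adjoin (K := K) hx
  obtain ⟨B⟩ := nonempty_reducedBasis (K := K) hx
  rw [degree_ram_of_tame hx htame B hR]
  set n := Module.finrank K⟮x⟯ F with hn
  have hn0 : (1 : ℤ) ≤ n := Int.natCast_pos.2 Module.finrank_pos
  set m : ℕ := max (Finset.univ.sup B.k) (rBound K F).toNat
  have h1 := finrank_rrSpace_poles_of_le B hx (m := (m : ℤ)) fun i => by
    exact_mod_cast (Finset.le_sup (f := B.k) (Finset.mem_univ i)).trans (le_max_left _ _)
  have h2 := ell_eq (G := (m : ℤ) • poleDiv K x) (by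
    rw [map_zsmul, degree_poleDiv hx, smul_eq_mul]
    have h3 : rBound K F ≤ (m : ℤ) := (Int.self_le_toNat _).trans (by
      exact_mod_cast le_max_right (Finset.univ.sup B.k) (rBound K F).toNat)
    nlinarith [Int.natCast_nonneg m])
  rw [map_zsmul, degree_poleDiv hx, smul_eq_mul, ell] at h2
  linarith

/-- The genus through a coordinate branched over `∞` and the values `c`. -/
theorem two_rGenus_of_branch {x : F} (hx : Transcendental K x) [Algebra.IsSeparable K⟮x⟯ F]
    {M0 : ℕ} {c : Fin M0 → K} (hc : Function.Injective c) {s : Finset (Place K F)}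
    (hs : ∀ v, v ∈ s ↔ v.ord x < 0 ∨ ∃ i, 0 < v.ord (x - algebraMap K F (c i)))
    (hunr : ∀ v, v ∉ s → ramIdx x v = 1) (htame : ∀ v ∈ s, ((ramIdx x v : ℤ) : K) ≠ 0) :
    2 * (rGenus K F - 1) = ((M0 : ℤ) - 1) * Module.finrank K⟮x⟯ F - s.card := by
  classical
  have htame' : ∀ v : Place K F, ((ramIdx x v : ℤ) : K) ≠ 0 := fun v => by
    by_cases h : v ∈ s
    · exact htame v h
    · rw [hunr v h, Int.cast_one]; exact one_ne_zero
  obtain ⟨-, R, hR, -, -⟩ := exists_genus_of_tame hx htame'
  have h2 := two_rGenus_eq hx htame' hR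
  set T : Divisor K F := poleDiv K x + ∑ i, poleDiv K (x - algebraMap K F (c i))⁻¹ with hT
  have hTv : ∀ v, T v = max (-v.ord x) 0 + ∑ i, max (v.ord (x - algebraMap K F (c i))) 0 := fun v => by
    rw [hT, Finsupp.add_apply, Finsupp.finsetSum_apply, poleDiv_apply]
    congr 1
    exact Finset.sum_congr rfl fun i _ => by rw [poleDiv_apply, v.ord_inv, neg_neg]
  have hTs : ∀ v ∈ s, T v = ramIdx x v := by
    intro v hv
    rw [hTv]
    rcases (hs v).1 hv with hneg | ⟨i, hi⟩
    · have hz : ∀ i, max (v.ord (x - algebraMap K F (c i))) 0 = 0 := fun i =>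
        max_eq_right (not_lt.1 fun h => by have := ord_nonneg_of_sub h; omega)
      rw [ramIdx, if_pos hneg, Finset.sum_eq_zero fun i _ => hz i, max_eq_left (by omega), add_zero]
    · have h0 := ord_nonneg_of_sub hi
      have hz : ∀ k, k ≠ i → max (v.ord (x - algebraMap K F (c k))) 0 = 0 := by
        intro k hk
        refine max_eq_right (not_lt.1 fun hk' => hk (hc ?_))
        have h := (ordGE_of_le (show (1 : ℤ) ≤ _ from hk')).sub (ordGE_of_le (show (1 : ℤ) ≤ _ from hi))
        rw [sub_sub_sub_cancel_left, ← map_sub] at h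
        rcases h with h | h
        · exact (sub_eq_zero.1 ((map_eq_zero_iff _ (algebraMap K F).injective).1 h)).symm
        · rw [ord_algebraMap] at h; omega
      rw [max_eq_right (by omega : -v.ord x ≤ 0), zero_add,
        Finset.sum_eq_single i (fun k _ hk => hz k hk) (by simp), max_eq_left hi.le,
        ramIdx_eq hx hi]
  have hTsupp : T.support ⊆ s := by
    intro v hv
    rw [Finsupp.mem_support_iff, hTv] at hv
    rw [hs]
    by_contra! hn
    exact hv (by
      rw [max_eq_right (by omega : -v.ord x ≤ 0),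
        Finset.sum_eq_zero fun i _ => max_eq_right (hn.2 i), add_zero])
  have hRsupp : R.support ⊆ s := by
    intro v hv
    rw [Finsupp.mem_support_iff, hR] at hv
    by_contra h
    exact hv (by rw [hunr v h, sub_self])
  have hdeg : Divisor.degree R = Divisor.degree T - s.card := by
    rw [degree_eq_sum (s := s) hRsupp, degree_eq_sum (s := s) hTsupp, Finset.card_eq_sum_ones s]
    push_cast
    rw [← Finset.sum_sub_distrib]
    exact Finset.sum_congr rfl fun v hv => by rw [hR, hTs v hv]
  have hTdeg : Divisor.degree T = ((M0 : ℤ) + 1) * Module.finrank K⟮x⟯ F := by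
    rw [hT, map_add, degree_poleDiv hx, map_sum]
    have h1 : ∀ i, Divisor.degree (poleDiv K (x - algebraMap K F (c i))⁻¹) =
        Module.finrank K⟮x⟯ F := fun i => by
      rw [degree_poleDiv (transcendental_inv (transcendental_sub hx _)), adjoin_simple_inv_eq,
        adjoin_simple_sub_eq]
    simp only [h1, Finset.sum_const, Finset.card_univ, Fintype.card_fin, nsmul_eq_mul]
    ring
  linarith [h2, hdeg, hTdeg]

/-- A fibre with as many automorphisms with distinct residues as its degree is unramified. -/
theorem ord_eq_one_of_autos {x : F} (hx : Transcendental K x) {a : K} {v : Place K F}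
    (hv : 0 < v.ord (x - algebraMap K F a)) {G : Type*} [Fintype G] (ψ : G → (F ≃ₐ[K] F))
    (hψ : ∀ g, ψ g x = x) (hcard : Fintype.card G = Module.finrank K⟮x⟯ F)
    (hdist : ∀ g g', g ≠ g' → ∃ f : F, OrdGE v 0 (ψ g f) ∧ OrdGE v 0 (ψ g' f) ∧
      ψ g f ≠ ψ g' f ∧ v.ord (ψ g f - ψ g' f) = 0) :
    v.ord (x - algebraMap K F a) = 1 := by
  classical
  set w : G → Place K F := fun g => (ψ g).symm • v with hw
  have hord : ∀ g f, (w g).ord f = v.ord (ψ g f) := fun g f => by
    conv_lhs => rw [hw, ← (ψ g).symm_apply_apply f]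
    exact Place.ord_smul _ _ _
  set t := x - algebraMap K F a with ht
  have htr : Transcendental K t := transcendental_sub hx a
  have hfix : ∀ g, ψ g t = t := fun g => by rw [ht, map_sub, hψ, AlgEquiv.commutes]
  have hinj : Function.Injective w := by
    intro g g' h
    by_contra hne
    obtain ⟨f, h1, h2, h3, h4⟩ := hdist g g' hne
    have hf : OrdGE (w g) 0 f := by
      rcases h1 with h1 | h1
      · exact Or.inl ((map_eq_zero_iff _ (ψ g).injective).1 h1)
      · exact ordGE_of_le (by rwa [hord])
    obtain ⟨b, hb⟩ := exists_residue (w g) hf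
    have key : ∀ g'' : G, w g'' = w g → OrdGE v 1 (ψ g'' f - algebraMap K F b) := fun g'' hg => by
      rcases hb with hb | hb
      · exact Or.inl (by rw [← (ψ g'').commutes b, ← map_sub, hb, map_zero])
      · refine ordGE_of_le ?_
        rwa [← (ψ g'').commutes b, ← map_sub, ← hord, hg]
    have hsub := (key g rfl).sub (key g' h.symm)
    rw [sub_sub_sub_cancel_right] at hsub
    have := hsub.le_ord (sub_ne_zero.2 h3)
    omega
  have hzero : ∀ g, w g ∈ zerosOf K t := fun g => mem_zerosOf.2 (by rwa [hord, hfix])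
  have hsum := sum_ord_zerosOf htr
  rw [ht, adjoin_simple_sub_eq, ← ht] at hsum
  have hle : ∑ u ∈ Finset.univ.image w, u.ord t ≤ ∑ u ∈ zerosOf K t, u.ord t :=
    Finset.sum_le_sum_of_subset_of_nonneg (fun u hu => by
      obtain ⟨g, -, rfl⟩ := Finset.mem_image.1 hu; exact hzero g)
      fun u hu _ => (mem_zerosOf.1 hu).le
  rw [Finset.sum_image hinj.injOn, hsum, ← hcard] at hle
  simp only [hord, hfix, Finset.sum_const, Finset.card_univ, nsmul_eq_mul] at hle
  haveI := finiteDimensional_adjoin (K := K) hx
  have hpos : (0 : ℤ) < Fintype.card G := by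
    rw [hcard]; exact Int.natCast_pos.2 Module.finrank_pos
  nlinarith

end Curve

section Model

open FLTAgent.Specialization

variable {L k : Type*} [Field L] [Field k] {A : ValuationSubring L} {π : A →+* k}
variable {F Fb : Type*} [Field F] [Field Fb] [Algebra L F] [Algebra k Fb]
variable [IsAlgClosed L] [IsFunctionField L F] [IsAlgClosed k] [IsFunctionField k Fb]
variable (M : Specialization.Model π F Fb)

/-- A model with the same genus on both fibres is smooth. -/
theorem smooth_of_rGenus_le (h : rGenus L F ≤ rGenus k Fb) : M.Smooth := by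
  obtain ⟨m₀, hm₀⟩ := M.exists_le_mul (max (rBound L F) (rBound k Fb))
  refine ⟨m₀, fun m hm => ?_⟩
  have h1 := hm₀ m hm
  have hb1 : rBound L F ≤ max (rBound L F) (rBound k Fb) := le_max_left _ _
  have hb2 : rBound k Fb ≤ max (rBound L F) (rBound k Fb) := le_max_right _ _
  rw [ell_eq (by rw [M.degree_poles_red]; omega), ell_eq (by rw [M.degree_poles]; omega),
    M.degree_poles, M.degree_poles_red]
  omega

variable {M}

/-- On a smooth model a function with divisor divisible by `m` and constant reduction is an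
`m`-th power up to a constant, with a root of constant reduction. -/
theorem exists_root_of_constant (hM : M.Smooth) (hA : RankOne π) {m : ℕ} (hm : (m : k) ≠ 0)
    {f : F} {c : k} (hc : c ≠ 0) (hf : M.Res f (algebraMap k Fb c))
    (hdvd : ∀ v : Place L F, (m : ℤ) ∣ v.ord f) :
    ∃ (a : L) (h : F) (b : k), b ≠ 0 ∧ f = algebraMap L F a * h ^ m ∧
      M.Res h (algebraMap k Fb b) := by
  classical
  have hm0 : m ≠ 0 := by rintro rfl; simp at hm
  have hcF : algebraMap k Fb c ≠ 0 := (_root_.map_ne_zero _).2 hc
  have hf0 : f ≠ 0 := hf.ne_zero hcF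
  set E : Divisor L F := (divOf L f).mapRange (· / (m : ℤ)) (Int.zero_ediv _) with hEdef
  have hE : m • E = divOf L f := Finsupp.ext fun v => by
    rw [Finsupp.smul_apply, nsmul_eq_mul, hEdef, Finsupp.mapRange_apply, divOf_apply,
      Int.mul_ediv_cancel' (hdvd v)]
  have hdeg : Divisor.degree E = 0 := by
    have h := congrArg Divisor.degree hE
    rw [map_nsmul, degree_divOf, nsmul_eq_mul, mul_eq_zero] at h
    exact h.resolve_left (by exact_mod_cast hm0)
  have hred : Model.divMap hM E = 0 := by
    have h := congrArg (Model.divMap hM) hE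
    rw [map_nsmul, Model.divMap_divOf hM hf hcF, divOf_algebraMap] at h
    refine Finsupp.ext fun Q => ?_
    have h1 := congrArg (fun D : Divisor k Fb => D Q) h
    simp only [Finsupp.smul_apply, nsmul_eq_mul, Finsupp.coe_zero, Pi.zero_apply, mul_eq_zero] at h1
    exact h1.resolve_left (by exact_mod_cast hm0)
  have hprin := Model.isPrincipal_of_divMap hM hA hm hdeg
    (isPrincipal_iff.2 ⟨f, hf0, hE⟩) (isPrincipal_iff.2 ⟨1, one_ne_zero, by
      rw [hred, ← map_one (algebraMap k Fb), divOf_algebraMap]⟩)
  obtain ⟨h₀, hh₀, hEh⟩ := isPrincipal_iff.1 hprin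
  obtain ⟨e, g, hg, heg⟩ := M.scaled h₀ hh₀
  set h : F := e • h₀ with hdef
  have he : e ≠ 0 := by rintro rfl; rw [hdef, zero_smul] at heg; exact hg (heg.unique M.res_zero)
  have hh : h ≠ 0 := heg.ne_zero hg
  have hdh : divOf L (f / h ^ m) = 0 := by
    rw [divOf_div hf0 (pow_ne_zero _ hh), divOf_pow, hdef, Algebra.smul_def,
      divOf_mul ((_root_.map_ne_zero _).2 he) hh₀, divOf_algebraMap, zero_add, ← hEh, hE, sub_self]
  obtain ⟨a, ha⟩ := eq_algebraMap_of_forall_ord_nonneg (K := L) (f := f / h ^ m) fun v => by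
    rw [← divOf_apply (K := L), hdh]; simp
  have hres : M.Res (algebraMap L F a) (algebraMap k Fb c / g ^ m) :=
    ha ▸ hf.div (heg.pow m) (pow_ne_zero _ hg)
  obtain ⟨d, hd⟩ : ∃ d : k, algebraMap k Fb c / g ^ m = algebraMap k Fb d := by
    rcases A.mem_or_inv_mem a with h | h
    · exact ⟨π ⟨a, h⟩, hres.unique (M.toReduction.res_algebraMap ⟨a, h⟩)⟩
    · have h1 := hres.inv (div_ne_zero hcF (pow_ne_zero _ hg))
      rw [← map_inv₀] at h1
      refine ⟨(π ⟨a⁻¹, h⟩)⁻¹, ?_⟩
      rw [map_inv₀, ← h1.unique (M.toReduction.res_algebraMap ⟨a⁻¹, h⟩), inv_inv]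
  have hd0 : d ≠ 0 := by
    rintro rfl
    rw [map_zero] at hd
    exact div_ne_zero hcF (pow_ne_zero _ hg) hd
  have hgm : g ^ m = algebraMap k Fb (c / d) := by
    rw [map_div₀, ← hd, div_div_cancel₀ hcF]
  obtain ⟨b, hb⟩ : ∃ b : k, g = algebraMap k Fb b := by
    refine eq_algebraMap_of_forall_ord_nonneg (K := k) (f := g) fun v => ?_
    have h1 := congrArg v.ord hgm
    rw [ord_pow, ord_algebraMap] at h1
    rw [(mul_eq_zero.1 h1).resolve_left (by exact_mod_cast hm0)]
  refine ⟨a, h, b, ?_, ?_, hb ▸ heg⟩
  · rintro rfl; exact hg (by rw [hb, map_zero])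
  · rw [← ha, div_mul_cancel₀ _ (pow_ne_zero _ hh)]

end Model

end FLTAgent.DeligneSerre
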