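import Fermat.Agent.GoodModel.Level

/-!
# The auxiliary coordinate at a multiple level

At a level `n = M₀ N'` the function `hh M₀` has expansions over `S` at every cusp, `j` is a
rational function of it, and its translates are separated after any reduction.
-/

set_option autoImplicit false
set_option linter.unusedSectionVars false

noncomputable section

open UpperHalfPlane hiding I I_re I_im
open Filter Topology Complex Function FLTAgent.ModEq ModularCurve
open scoped MatrixGroups Manifold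

namespace FLTAgent.DeligneSerre

open FLTAgent.GoodModel

/-- An element fixing every point is `± 1`. -/
theorem eq_one_or_neg_one {g : SL(2, ℤ)} (h : ∀ τ : ℍ, g • τ = τ) : g = 1 ∨ g = -1 := by
  have key : ∀ t : ℝ, 0 < t → ((g 0 0 : ℝ) - g 1 1) * t = 0 ∧ (g 0 1 : ℝ) + g 1 0 * t ^ 2 = 0 := by
    intro t ht
    set τ : ℍ := ⟨t * Complex.I, by simp [ht]⟩
    have h1 := congrArg (fun z : ℍ => (z : ℂ)) (h τ)
    simp only [coe_sl_smul'] at h1
    have hne : ((g 1 0 : ℤ) : ℂ) * τ + ((g 1 1 : ℤ) : ℂ) ≠ 0 := by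
      intro h0
      rw [h0, div_zero] at h1
      exact τ.ne_zero h1.symm
    rw [div_eq_iff hne] at h1
    have hτ : (τ : ℂ) = t * Complex.I := rfl
    rw [hτ] at h1
    have hre := congrArg Complex.re h1
    have him := congrArg Complex.im h1
    simp at hre him
    exact ⟨by linear_combination him, by linear_combination hre⟩
  obtain ⟨h1, h2⟩ := key 1 one_pos
  obtain ⟨-, h3⟩ := key 2 two_pos
  have ha : g 0 0 = g 1 1 := by exact_mod_cast (show (g 0 0 : ℝ) = g 1 1 by linarith)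
  have hb : g 0 1 = 0 := by exact_mod_cast (show (g 0 1 : ℝ) = 0 by linarith)
  have hc : g 1 0 = 0 := by exact_mod_cast (show (g 1 0 : ℝ) = 0 by linarith)
  have hdet := g.2
  rw [Matrix.det_fin_two, hb, hc, mul_zero, sub_zero, ← ha] at hdet
  rcases Int.eq_one_or_neg_one_of_mul_eq_one hdet with h4 | h4
  · left
    ext i j
    fin_cases i <;> fin_cases j <;> simp_all
  · right
    ext i j
    fin_cases i <;> fin_cases j <;> simp_all

variable {S : Subring ℂ} {n : ℕ} [NeZero n] (ζ : Sˣ)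

/-- The expansion of a translate by a power of `T`. -/
theorem sPairs_compg_T (hζ : ((ζ : S) : ℂ) = zetaN n) {f : ℍ → ℂ} {G : LaurentSeries S}
    (h : (f, G) ∈ sPairs S n) (k : ℤ) :
    (compg (ModularGroup.T ^ k) f, twist (ζ ^ k) G) ∈ sPairs S n := by
  have hT : ∀ τ : ℍ, (ModularGroup.T ^ k) • τ = affPt 1 k 1 τ := fun τ => by
    refine UpperHalfPlane.ext ?_
    rw [UpperHalfPlane.modular_T_zpow_smul, UpperHalfPlane.coe_vadd, coe_affPt]
    push_cast
    ring
  refine mem_sPairs.mpr ⟨?_, ?_⟩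
  · show MDiff fun τ => f ((ModularGroup.T ^ k) • τ)
    simp only [hT]
    exact mdiff_comp_affPt 1 k 1 h.1
  · have hu : Units.map S.subtype.toMonoidHom (ζ ^ k) =
        Units.mk0 (Complex.exp (2 * Real.pi * Complex.I * k / n)) (Complex.exp_ne_zero _) := by
      refine (map_zeta ζ hζ _).trans ?_
      ext
      rw [Units.val_zpow_eq_zpow_val, zetaN, Units.val_mk0, ← Complex.exp_int_mul, Units.val_mk0]
      congr 1
      ring
    have h2 := (mem_sPairs.mp h).2.comp_affine 1
      (Units.mk0 (Complex.exp (2 * Real.pi * Complex.I * k / n)) (Complex.exp_ne_zero _)) 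
      (affPt 1 k 1) (fun τ => by rw [qp_affPt, Units.val_mk0, one_mul]) (tendsto_affPt 1 k 1)
    rw [substHom_apply, qExpand_one_apply] at h2
    have he : sIncl S (twist (ζ ^ k) G) = twist (Units.map S.subtype.toMonoidHom (ζ ^ k)) (sIncl S G) := by
      ext i
      rw [coeffMap_coeff, twist_coeff, twist_coeff, coeffMap_coeff, map_mul]
      congr 1
      rw [← map_zpow, Units.coe_map]
      rfl
    show HasExp n (fun τ => f ((ModularGroup.T ^ k) • τ)) (sIncl S (twist (ζ ^ k) G))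
    rw [he, hu]
    simp only [hT]
    exact h2

/-- The coordinate with its values at the finite cusps. -/
structure Coordinate (S : Subring ℂ) (M0 N' : ℕ) [NeZero M0] where
  H : LaurentSeries S
  c : Fin M0 → S
  pair : (hh M0, H) ∈ sPairs S (M0 * N')
  lead : LeadAt H (-(N' : ℤ))
  isUnit_c : ∀ i j, i ≠ j → IsUnit (c i - c j)
  mem : hh M0 ∈ trRing S (M0 * N')
  cusp : ∀ σ : SL(2, ℤ), ∃ G : LaurentSeries S, (compg σ (hh M0), G) ∈ sPairs S (M0 * N') ∧
    (LeadAt G (-(N' : ℤ)) ∨ ∃ i, GeOrd (G - HahnSeries.C (c i)) 1)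
  rel : ∀ [NeZero (M0 * N')], ∃ P : Polynomial S, P.natDegree ≤ M0 * M0 + M0 ∧
    jAt (1 : Sˣ) (M0 * N') * (∏ i, (Polynomial.X - Polynomial.C (c i)) ^ M0).eval₂ HahnSeries.C H =
      P.eval₂ HahnSeries.C H
  sep : ∀ γ : SL(2, ℤ), γ ∉ CongruenceSubgroup.Gamma M0 → -γ ∉ CongruenceSubgroup.Gamma M0 → ∀ G : LaurentSeries S,
    (compg γ (hh M0), G) ∈ sPairs S (M0 * N') → ∀ {K : Type} [Field K] (φ : S →+* K),
    coeffMap φ G ≠ coeffMap φ H

theorem twist_geOrd {R : Type*} [CommRing R] {G : LaurentSeries R} {a : ℤ} (h : GeOrd G a)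
    (u : Rˣ) : GeOrd (twist u G) a := fun k hk => by rw [twist_coeff, h k hk, mul_zero]

variable {M0 N' : ℕ} [NeZero M0] [NeZero N']

/-- Existence of the coordinate. -/
theorem nonempty_coordinate (hM : M0 = 2 ∨ M0 = 3) (hk : M0 * N' = n)
    (hζ : ((ζ : S) : ℂ) = zetaN n) (hu : IsUnit ((n : ℕ) : S)) :
    Nonempty (Coordinate S M0 N') := by
  classical
  subst hk
  have hζ₀ : (((ζ ^ N' : Sˣ) : S) : ℂ) = zetaN M0 := by
    rw [Units.val_pow_eq_pow_val, SubmonoidClass.coe_pow, hζ, zetaN, zetaN, Units.val_mk0,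
      Units.val_mk0, ← Complex.exp_nat_mul]
    congr 1
    have : (N' : ℂ) ≠ 0 := Nat.cast_ne_zero.mpr (NeZero.ne N')
    have : (M0 : ℂ) ≠ 0 := Nat.cast_ne_zero.mpr (NeZero.ne M0)
    push_cast
    field_simp
  have hu₀ : IsUnit ((M0 : ℕ) : S) := by
    rw [Nat.cast_mul] at hu
    exact (IsUnit.mul_iff.mp hu).1
  obtain ⟨H₀, hH₀, hlead₀⟩ := exists_hh_series (ζ ^ N') hM hζ₀ hu₀
  obtain ⟨c, hc, hval⟩ := exists_cuspValues (ζ ^ N') hM hζ₀ hu₀
  set H := qExpand S N' H₀ with hH
  have hN : (1 : ℤ) ≤ N' := by exact_mod_cast Nat.pos_of_ne_zero (NeZero.ne N')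
  have hpair : (hh M0, H) ∈ sPairs S (M0 * N') := sPairs_refine rfl hH₀
  have hlead : LeadAt H (-(N' : ℤ)) := by
    refine ⟨by simpa using geOrd_qExpand hlead₀.1 N', ?_⟩
    rw [hH, show -(N' : ℤ) = (N' : ℤ) * (-1) by ring, qExpand_coeff_mul]
    exact hlead₀.2
  have hval' : ∀ i, ∃ G : LaurentSeries S, (compg (cuspRep0 M0 i) (hh M0), G) ∈ sPairs S (M0 * N') ∧
      GeOrd (G - HahnSeries.C (c i)) (N' : ℤ) := by
    intro i
    obtain ⟨G, hG, hG1⟩ := hval i
    refine ⟨qExpand S N' G + HahnSeries.C (c i), ?_, ?_⟩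
    · have h := (sPairs S (M0 * N')).add_mem (sPairs_refine rfl hG) (sPairs_const (c i))
      convert h using 1
      refine Prod.ext ?_ rfl
      funext τ
      simp [compg_apply]
    · rw [add_sub_cancel_right]
      simpa using geOrd_qExpand hG1 N'
  have hb : ∀ i, IsBoundedAtImInfty fun τ ↦ hh M0 (cuspRep0 M0 i • τ) := fun i ↦ by
    obtain ⟨G, hG, hG1⟩ := hval i
    have h1 : IsBoundedAtImInfty fun τ ↦ hh M0 (cuspRep0 M0 i • τ) - (c i : ℂ) :=
      (mem_sPairs.mp hG).2.isBoundedAtImInfty fun k hk ↦ by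
        rw [coeffMap_coeff, hG1 k (by omega), map_zero]
    exact (h1.add (Filter.const_boundedAtFilter atImInfty (c i : ℂ))).congr_left fun τ ↦ by simp
  -- the translates
  have hcases : ∀ σ : SL(2, ℤ), ∃ (k : ℤ) (G : LaurentSeries S),
      (compg σ (hh M0), G) ∈ sPairs S (M0 * N') ∧
      ((G = twist (ζ ^ k) H ∧ ∃ δ ∈ CongruenceSubgroup.Gamma M0, ∀ τ : ℍ, σ • τ = δ • (ModularGroup.T ^ k) • τ) ∨
        ∃ i, GeOrd (G - HahnSeries.C (c i)) 1) := by
    intro σ
    obtain ⟨γ, hγ, r, hr, k, hσ⟩ := exists_cusp_decomp hM σ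
    have he : compg σ (hh M0) = compg (ModularGroup.T ^ k) (compg r (hh M0)) := by
      funext τ
      simp only [compg_apply, hσ, hh_invariant hγ]
    rcases hr with rfl | ⟨i, rfl⟩
    · refine ⟨k, _, ?_, Or.inl ⟨rfl, γ, hγ, fun τ => by simpa using hσ τ⟩⟩
      rw [he, compg_one]
      exact sPairs_compg_T ζ hζ hpair k
    · obtain ⟨G, hG, hG1⟩ := hval' i
      refine ⟨k, _, he ▸ sPairs_compg_T ζ hζ hG k, Or.inr ⟨i, ?_⟩⟩
      have : twist (ζ ^ k) (HahnSeries.C (c i)) = HahnSeries.C (c i) := by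
        ext j
        rw [twist_coeff]
        rcases eq_or_ne j 0 with rfl | hj
        · simp
        · simp [HahnSeries.C_apply, HahnSeries.coeff_single_of_ne hj]
      rw [← this, ← map_sub]
      exact twist_geOrd (hG1.mono hN) _
  refine ⟨{ H := H, c := c, pair := hpair, lead := hlead, isUnit_c := hc,
            mem := ?_, cusp := ?_, rel := ?_, sep := ?_ }⟩
  · refine mem_trRing.mpr fun σ => ?_
    obtain ⟨-, G, hG, -⟩ := hcases σ
    exact ⟨G, hG⟩
  · intro σ
    obtain ⟨k, G, hG, h | h⟩ := hcases σ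
    · refine ⟨G, hG, Or.inl ?_⟩
      rw [h.1]
      refine ⟨twist_geOrd hlead.1 _, ?_⟩
      rw [twist_coeff]
      exact (Units.isUnit _).mul hlead.2
    · exact ⟨G, hG, Or.inr h⟩
  · intro _
    set J : LaurentSeries S := jAt (1 : Sˣ) (M0 * N')
    have hj : (jFun, J) ∈ sPairs S (M0 * N') := by
      have h := sPairs_jd ζ hζ (M0 := M0) (N' := N') rfl M0
      have he : jd M0 M0 = jFun := funext fun τ => by
        rw [jd]
        congr 1
        refine UpperHalfPlane.ext ?_
        rw [coe_affPt]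
        have : (M0 : ℂ) ≠ 0 := Nat.cast_ne_zero.mpr (NeZero.ne M0)
        field_simp
        simp
      rwa [he] at h
    obtain ⟨P, hP1, hP2⟩ := exists_poly_of_invariant hM rfl hH₀ hlead₀ c hb hj
      (fun γ _ τ => jFun_smul γ τ) (fun _ => M0) (d := M0) (fun i => by
        obtain ⟨G, hG, hG1⟩ := hval i
        have hG' := (sPairs S (M0 * N')).pow_mem (sPairs_refine (n := M0 * N') (k := N') rfl hG) M0
        have hp := (sPairs S (M0 * N')).mul_mem hj hG'
        refine ((mem_sPairs.mp hp).2.isBoundedAtImInfty fun k hk => ?_).congr_left fun τ => ?_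
        · have hgo : GeOrd (qExpand S N' G) (N' : ℤ) := by simpa using geOrd_qExpand hG1 N'
          rw [coeffMap_coeff, Prod.snd_mul, Prod.pow_snd,
            ((geOrd_jAt _ (M0 * N')).mul (hgo.pow M0)) k (by push_cast; linarith), map_zero]
        · simp only [Prod.fst_mul, Prod.pow_fst, Pi.mul_apply, Pi.pow_apply, jFun_smul])
      (by rw [mul_comm N' M0]; exact geOrd_jAt _ _)
    refine ⟨P, hP1.trans ?_, ?_⟩
    · rw [Finset.sum_const, Finset.card_univ, Fintype.card_fin, smul_eq_mul, add_comm]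
    · have := congrArg Prod.snd hP2
      rw [Prod.snd_mul, evalP_snd, evalP_snd] at this
      exact this.symm
  · intro γ hγ hγ' G hG K _ φ he
    obtain ⟨k, G', hG', h⟩ := hcases γ
    obtain rfl := sPairs_unique hG hG'
    have hcoe := congrArg (fun z : LaurentSeries K => z.coeff (-(N' : ℤ))) he
    simp only [coeffMap_coeff] at hcoe
    obtain ⟨u, hu'⟩ := hlead.2
    rcases h with ⟨rfl, δ, hδ, hσ⟩ | ⟨i, hi⟩
    · rw [twist_coeff, map_mul, ← hu'] at hcoe
      have h1 : φ ((ζ ^ k) ^ (-(N' : ℤ)) : Sˣ) = 1 :=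
        mul_right_cancel₀ (u.isUnit.map φ).ne_zero (hcoe.trans (one_mul _).symm)
      by_cases hdvd : ((M0 * N' : ℕ) : ℤ) ∣ k * -(N' : ℤ)
      · -- then `γ = ± δ T^k` lies in `± Γ(M₀)`
        have hk0 : (M0 : ℤ) ∣ k := by
          push_cast at hdvd
          rw [mul_neg, dvd_neg] at hdvd
          exact (mul_dvd_mul_iff_right (by omega : (N' : ℤ) ≠ 0)).1 hdvd
        have hT : ModularGroup.T ^ k ∈ CongruenceSubgroup.Gamma M0 := by
          rw [CongruenceSubgroup.Gamma_mem]
          simp only [ModularGroup.coe_T_zpow]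
          obtain ⟨l, rfl⟩ := hk0
          simp
        have hg : ∀ τ : ℍ, ((δ * ModularGroup.T ^ k)⁻¹ * γ) • τ = τ := fun τ => by
          rw [mul_smul, hσ, mul_inv_rev, mul_smul, inv_smul_smul, inv_smul_smul]
        rcases eq_one_or_neg_one hg with h2 | h2
        · exact hγ (inv_mul_eq_one.1 h2 ▸ Subgroup.mul_mem _ hδ hT)
        · refine hγ' ?_
          rw [inv_mul_eq_iff_eq_mul.1 h2, mul_neg, mul_one, neg_neg]
          exact Subgroup.mul_mem _ hδ hT
      · have h2 := (isUnit_one_sub ζ hζ hu (k * -(N' : ℤ)) hdvd).map φ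
        rw [map_sub, map_one, zpow_mul, h1, sub_self] at h2
        exact not_isUnit_zero h2
    · have h0 := hi (-(N' : ℤ)) (by omega)
      rw [HahnSeries.coeff_sub, HahnSeries.C_apply,
        HahnSeries.coeff_single_of_ne (by omega : -(N' : ℤ) ≠ 0), sub_zero] at h0
      rw [h0, map_zero] at hcoe
      exact (hlead.2.map φ).ne_zero hcoe.symm

end FLTAgent.DeligneSerre
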