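import Fermat.Agent.DeligneSerre.Smooth.Genus
import Fermat.Agent.DeligneSerre.Field.Gens

/-!
# Subfields fixed by a congruence group, and functions fixed by translation by `T`
-/

set_option autoImplicit false
set_option linter.unusedSectionVars false
set_option linter.style.haveILetI false
set_option maxHeartbeats 800000
set_option synthInstance.maxHeartbeats 100000

noncomputable section

open UpperHalfPlane hiding I I_re I_im
open Filter Topology Complex Function FLTAgent.ModEq FLTAgent.GoodModel ModularCurve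
open scoped MatrixGroups IntermediateField

namespace FLTAgent.DeligneSerre

theorem pmGamma_le_pmGamma1 (n : ℕ) : pmGamma n ≤ pmGamma1 n := by
  rintro g (hg | hg)
  · exact Gamma_le_pmGamma1 n hg
  · have h := mul_mem (Gamma_le_pmGamma1 n hg)
      (Subgroup.mem_sup_right (S := CongruenceSubgroup.Gamma1 n)
        (Subgroup.mem_zpowers (-1 : SL(2, ℤ))))
    rwa [mul_neg, mul_one, neg_neg] at h

theorem T_mem_pmGamma1 (n : ℕ) : ModularGroup.T ∈ pmGamma1 n :=
  Subgroup.mem_sup_left (by rw [CongruenceSubgroup.Gamma1_mem]; simp [ModularGroup.coe_T])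

/-- `±Γ₁(n)` is generated by `±Γ(n)` and `T`. -/
theorem pmGamma1_le_of_T {n : ℕ} {St : Subgroup SL(2, ℤ)} (h1 : pmGamma n ≤ St)
    (h2 : ModularGroup.T ∈ St) : pmGamma1 n ≤ St := by
  refine sup_le (fun g hg => ?_) (Subgroup.zpowers_le.2 (h1 (Or.inr (by rw [neg_neg]; exact one_mem _))))
  obtain ⟨ha, hd, hc⟩ := (CongruenceSubgroup.Gamma1_mem n g).mp hg
  rw [← mul_inv_cancel_left (ModularGroup.T ^ (g 0 1)) g]
  refine mul_mem (zpow_mem h2 _) (h1 (Or.inl ?_))
  rw [← zpow_neg, CongruenceSubgroup.Gamma_mem]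
  simp [Matrix.SpecialLinearGroup.coe_mul, ModularGroup.coe_T_zpow, Matrix.mul_apply,
    Fin.sum_univ_two, ha, hd, hc]

variable {S : Subring ℂ} {M0 N' : ℕ} [NeZero M0] [NeZero N'] [NeZero (M0 * N')]
  (P : Frame S M0 N') {K : Type} [Field K] (φ : S →+* K) (hφ : Surjective φ)

/-- The automorphisms from a group. -/
def Frame.autOf (H : Subgroup SL(2, ℤ)) : Subgroup (P.fld φ ≃ₐ[K] P.fld φ) :=
  (H.map (QuotientGroup.mk' (pmGamma (M0 * N')))).map (P.actQ φ hφ)

/-- The subfield fixed by a group. -/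
def Frame.fixedFld (H : Subgroup SL(2, ℤ)) : IntermediateField K (P.fld φ) :=
  IntermediateField.fixedField (P.autOf φ hφ H)

theorem Frame.mem_fixedFld {H : Subgroup SL(2, ℤ)} {z : P.fld φ} :
    z ∈ P.fixedFld φ hφ H ↔ ∀ g ∈ H, P.act φ hφ g z = z := by
  constructor
  · intro hz g hg
    exact hz ⟨_, _, ⟨g, hg, rfl⟩, rfl⟩
  · rintro hz ⟨_, _, ⟨g, hg, rfl⟩, rfl⟩
    exact hz g hg

theorem Frame.jj_mem_fixedFld (H : Subgroup SL(2, ℤ)) : P.jj φ hφ ∈ P.fixedFld φ hφ H :=
  (P.mem_fixedFld φ hφ).2 fun g _ => P.act_jj φ hφ g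

/-- The degree of a fixed field over the field of `j` is the index. -/
theorem Frame.finrank_fixedFld {H : Subgroup SL(2, ℤ)} (hle : pmGamma (M0 * N') ≤ H) :
    Module.finrank K⟮(⟨_, P.jj_mem_fixedFld φ hφ H⟩ : P.fixedFld φ hφ H)⟯ (P.fixedFld φ hφ H) =
      Nat.card (SL(2, ℤ) ⧸ H) := by
  classical
  set E := P.fixedFld φ hφ H with hE
  have hj : K⟮P.jj φ hφ⟯ ≤ E :=
    IntermediateField.adjoin_simple_le_iff.2 (P.jj_mem_fixedFld φ hφ H)
  rw [Specialization.finrank_adjoin_coe ⟨_, P.jj_mem_fixedFld φ hφ H⟩ hj]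
  have h2 := Module.finrank_mul_finrank K⟮P.jj φ hφ⟯ (IntermediateField.extendScalars hj) (P.fld φ)
  haveI : Fintype (SL(2, ℤ) ⧸ pmGamma (M0 * N')) := Subgroup.fintypeQuotientOfFiniteIndex
  set G := H.map (QuotientGroup.mk' (pmGamma (M0 * N'))) with hG
  have hcard : Nat.card (P.autOf φ hφ H) = Nat.card G :=
    (Nat.card_congr (Subgroup.equivMapOfInjective _ _ (P.actQ_injective φ hφ)).toEquiv).symm
  haveI : Finite (P.autOf φ hφ H) :=
    Nat.finite_of_card_ne_zero (by rw [hcard]; exact Nat.card_pos.ne')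
  haveI : Fintype (P.autOf φ hφ H) := Fintype.ofFinite _
  have hEF : Module.finrank (IntermediateField.extendScalars hj) (P.fld φ) = Nat.card G := by
    rw [← hcard, Nat.card_eq_fintype_card]
    exact FixedPoints.finrank_eq_card (P.autOf φ hφ H) (P.fld φ)
  rw [hEF, P.finrank_jj φ hφ] at h2
  have h3 := Subgroup.card_mul_index G
  rw [Subgroup.index_map_eq _ (QuotientGroup.mk'_surjective _)
    (by rw [QuotientGroup.ker_mk']; exact hle), mul_comm] at h3
  exact Nat.eq_of_mul_eq_mul_right Nat.card_pos (h2.trans h3.symm)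

include hφ in
/-- An element fixed by translation by `T` is fixed by `±Γ₁(n)`. -/
theorem Frame.mem_fixedFld_of_T {z : P.fld φ} (h : P.act φ hφ ModularGroup.T z = z) :
    z ∈ P.fixedFld φ hφ (pmGamma1 (M0 * N')) := by
  let St : Subgroup SL(2, ℤ) :=
    { carrier := {g | P.act φ hφ g z = z}
      one_mem' := by
        show P.act φ hφ 1 z = z
        rw [map_one, AlgEquiv.one_apply]
      mul_mem' := fun {a b} ha hb => by
        show P.act φ hφ (a * b) z = z
        rw [map_mul, AlgEquiv.mul_apply, hb, ha]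
      inv_mem' := fun {a} ha => by
        show P.act φ hφ a⁻¹ z = z
        conv_lhs => rw [← ha]
        rw [← AlgEquiv.mul_apply, ← map_mul, inv_mul_cancel, map_one, AlgEquiv.one_apply] }
  refine (P.mem_fixedFld φ hφ).2 fun g hg => pmGamma1_le_of_T (St := St) (fun k hk => ?_) h hg
  exact P.psi_of_mem φ hφ (inv_mem hk) z

theorem transl_eq_of_T {f : modRing S (M0 * N')} (h : transl ModularGroup.T f = f) :
    f ∈ invRing (pmGamma1 (M0 * N')) := by
  let St : Subgroup SL(2, ℤ) :=
    { carrier := {g | transl g f = f}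
      one_mem' := transl_one f
      mul_mem' := fun {a b} ha hb => by
        show transl (a * b) f = f
        rw [← transl_transl b a, ha, hb]
      inv_mem' := fun {a} ha => by
        show transl a⁻¹ f = f
        conv_lhs => rw [← ha]
        rw [transl_inv_transl] }
  exact mem_invRing.mpr fun g hg =>
    pmGamma1_le_of_T (St := St) (fun k hk => transl_of_mem_pmGamma hk f) h hg

include hφ in
/-- In an injective reduction a fixed element is a quotient of invariant functions. -/
theorem Frame.exists_inv_frac (hinj : Injective φ) {z : P.fld φ}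
    (hz : z ∈ P.fixedFld φ hφ (pmGamma1 (M0 * N'))) :
    ∃ a b : modRing S (M0 * N'), a ∈ invRing (pmGamma1 (M0 * N')) ∧
      b ∈ invRing (pmGamma1 (M0 * N')) ∧ b ≠ 0 ∧ P.redF φ hφ a = z * P.redF φ hφ b := by
  classical
  obtain ⟨a, b, hb, hzab⟩ := P.exists_frac φ hφ z
  obtain ⟨m, hm⟩ : ∃ m, M0 * N' = m + 1 :=
    ⟨M0 * N' - 1, by have := NeZero.ne (M0 * N'); omega⟩
  obtain ⟨b', hb'⟩ : ∃ b' : modRing S (M0 * N'),
      b' = ∏ k ∈ Finset.range (M0 * N'), transl (ModularGroup.T ^ k) b := ⟨_, rfl⟩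
  obtain ⟨a', ha'⟩ : ∃ a' : modRing S (M0 * N'),
      a' = a * ∏ k ∈ Finset.range m, transl (ModularGroup.T ^ (k + 1)) b := ⟨_, rfl⟩
  have hTn : transl (ModularGroup.T ^ (M0 * N')) b = b := by
    refine transl_of_mem_Gamma ?_ b
    rw [← zpow_natCast, CongruenceSubgroup.Gamma_mem]
    simp [ModularGroup.coe_T_zpow, -zpow_natCast]
    rw [← Nat.cast_mul, ZMod.natCast_self]
  have hTb : transl ModularGroup.T b' = b' := by
    rw [hb', map_prod]
    simp only [transl_transl, ← pow_succ]
    rw [show Finset.range (M0 * N') = Finset.range (m + 1) by rw [hm],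
      Finset.prod_range_succ' (fun k => transl (ModularGroup.T ^ k) b),
      Finset.prod_range_succ (fun k => transl (ModularGroup.T ^ (k + 1)) b)]
    congr 1
    rw [← hm, hTn, pow_zero, transl_one]
  have hredinj : Injective (P.redF φ hφ) := fun u v h =>
    serM_injective (coeffMap_injective φ hinj (congrArg Subtype.val h))
  have hbne : P.redF φ hφ b' ≠ 0 := by
    rw [hb', map_prod]
    exact Finset.prod_ne_zero_iff.2 fun k _ => P.redF_transl_ne φ hφ _ hb
  have hab : P.redF φ hφ a' = z * P.redF φ hφ b' := by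
    rw [ha', hb', map_mul, map_prod, map_prod, show Finset.range (M0 * N') = Finset.range (m + 1) by rw [hm],
      Finset.prod_range_succ' (fun k => P.redF φ hφ (transl (ModularGroup.T ^ k) b)), pow_zero,
      transl_one, hzab]
    field_simp
  have hTa : transl ModularGroup.T a' = a' := by
    refine hredinj ?_
    have hz' : P.psi φ hφ ModularGroup.T z = z := by
      have := (P.mem_fixedFld φ hφ).1 hz _ (inv_mem (T_mem_pmGamma1 _))
      rwa [P.act_apply, inv_inv] at this
    rw [← P.psi_redF, hab, map_mul, hz', P.psi_redF, hTb]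
  exact ⟨a', b', transl_eq_of_T hTa, transl_eq_of_T hTb,
    fun h => hbne (by rw [h, map_zero]), hab⟩

end FLTAgent.DeligneSerre
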