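import Fermat.Agent.DeligneSerre.Smooth.Genus
import Fermat.Agent.Specialization.Laurent

/-!
# The smooth model of the field of level `±Γ(n)`
-/

set_option autoImplicit false
set_option linter.unusedSectionVars false
set_option linter.style.haveILetI false
set_option maxHeartbeats 800000
set_option synthInstance.maxHeartbeats 100000

noncomputable section

open UpperHalfPlane hiding I I_re I_im
open Filter Topology Complex Function FLTAgent.ModEq FLTAgent.GoodModel ModularCurve
open AlgebraicCurve FLTAgent.Curves FLTAgent.Specialization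
open scoped MatrixGroups IntermediateField

namespace FLTAgent.DeligneSerre

variable {S S' : Subring ℂ} {n : ℕ}

theorem sIncl_incl (h : S ≤ S') (G : LaurentSeries S) :
    sIncl S' (coeffMap (Subring.inclusion h) G) = sIncl S G := by
  rw [coeffMap_coeffMap]
  rfl

theorem sPairs_mono (h : S ≤ S') {f : ℍ → ℂ} {G : LaurentSeries S} (hG : (f, G) ∈ sPairs S n) :
    (f, coeffMap (Subring.inclusion h) G) ∈ sPairs S' n :=
  mem_sPairs.mpr ⟨(mem_sPairs.mp hG).1, (sIncl_incl h G).symm ▸ (mem_sPairs.mp hG).2⟩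

theorem modRing_mono (h : S ≤ S') : modRing S n ≤ modRing S' n := by
  rintro f ⟨h1, h2⟩
  refine ⟨mem_trRing.mpr fun σ => ?_, h2⟩
  obtain ⟨G, hG⟩ := mem_trRing.mp h1 σ
  exact ⟨_, sPairs_mono h hG⟩

theorem coe_subringInclusion {R : Type*} [Ring R] {A B : Subring R} (h : A ≤ B) (x : A) :
    ((Subring.inclusion h x : B) : R) = (x : R) := rfl

/-- Extension of constants. -/
def modIncl (h : S ≤ S') : modRing S n →+* modRing S' n := Subring.inclusion (modRing_mono h)

theorem coe_modIncl (h : S ≤ S') (f : modRing S n) :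
    (modIncl h f : ℍ → ℂ) = (f : ℍ → ℂ) := by
  rw [modIncl]
  exact coe_subringInclusion (modRing_mono h) f

theorem red_modIncl [NeZero n] {K : Type*} [Field K] (h : S ≤ S') (φ' : S' →+* K)
    (f : modRing S n) : red φ' (modIncl h f) = red (φ'.comp (Subring.inclusion h)) f := by
  have hp : ((modIncl h f : ℍ → ℂ), coeffMap (Subring.inclusion h) (serM f)) ∈ sPairs S' n := by
    rw [coe_modIncl]
    exact sPairs_mono h (serM_spec f)
  rw [red_eq φ' hp, red, RingHom.comp_apply,
    coeffMap_coeffMap]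

section Model

variable {M0 N' : ℕ} [NeZero M0] [NeZero N'] [NeZero (M0 * N')]
variable {L k : Type} [Field L] [Field k] {A : ValuationSubring L} {π : A →+* k}
  (P' : Frame S' M0 N') (φ' : S' →+* L) (hφ' : Surjective φ')
  (P : Frame S M0 N') (φ : S →+* k) (hφ : Surjective φ)
  (h : S ≤ S') (e : S →+* A) (he : ∀ s, (e s : L) = φ' (Subring.inclusion h s))
  (he' : π.comp e = φ)

include he he' in
theorem res_redF (f : modRing S (M0 * N')) :
    (laurentReduction π (P'.fld φ')).Res (P'.redF φ' hφ' (modIncl h f)) (red φ f) := by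
  have hy : coeffMap A.subtype (coeffMap e (serM f)) = red φ' (modIncl h f) := by
    rw [red_modIncl, red, RingHom.comp_apply, coeffMap_coeffMap]
    congr 2
    exact RingHom.ext he
  have hmem : coeffMap A.subtype (coeffMap e (serM f)) ∈ P'.fld φ' := by
    rw [hy]; exact (P'.spec φ' hφ').1 _
  have h1 := laurentReduction_res (π := π) (E := P'.fld φ') hmem
  rw [coeffMap_coeffMap π e, he'] at h1
  have e2 : (⟨_, hmem⟩ : P'.fld φ') = P'.redF φ' hφ' (modIncl h f) := Subtype.ext hy
  exact e2 ▸ h1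

include hφ' he he' in
theorem exists_res_gens : ∀ s ∈ ({jAt (1 : kˣ) (M0 * N')} ∪
    (fun f : invRing (S := S) (M := M0 * N') (pmGamma (M0 * N')) =>
      red φ (f : modRing S (M0 * N'))) '' fullGens P.hM P.ξ P.hξ P.hv P.C),
    ∃ f, (laurentReduction π (P'.fld φ')).Res f s := by
  rintro s (rfl | ⟨f, -, rfl⟩)
  · exact ⟨_, red_jm P.ξ P.hξ φ ▸ res_redF P' φ' hφ' φ h e he he' (jm P.ξ P.hξ)⟩
  · exact ⟨_, res_redF P' φ' hφ' φ h e he he' _⟩

theorem redF_modIncl_jm : P'.redF φ' hφ' (modIncl h (jm P.ξ P.hξ)) = P'.jj φ' hφ' := by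
  refine Subtype.ext ?_
  rw [Frame.jj, P'.coe_redF, P'.coe_redF]
  congr 1
  refine Subtype.ext ?_
  rw [coe_modIncl, coe_jm, coe_jm]

include hφ' hφ P h e he he' in
theorem res_mem_fld [IsAlgClosed L] [IsAlgClosed k] (hπ : Surjective π) {f : P'.fld φ'}
    {g : LaurentSeries k} (hfg : (laurentReduction π (P'.fld φ')).Res f g) : g ∈ P.fld φ := by
  classical
  haveI := P'.isFunctionField φ' hφ'
  have hle : k⟮jAt (1 : kˣ) (M0 * N')⟯ ≤ P.fld φ :=
    baseField_le_levelField φ (fullGens P.hM P.ξ P.hξ P.hv P.C)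
  have hdeg : Module.finrank k⟮jAt (1 : kˣ) (M0 * N')⟯ (IntermediateField.extendScalars hle) =
      Nat.card (SL(2, ℤ) ⧸ pmGamma (M0 * N')) := (P.spec φ hφ).2
  haveI : FiniteDimensional k⟮jAt (1 : kˣ) (M0 * N')⟯ (IntermediateField.extendScalars hle) :=
    Module.finite_of_finrank_pos (by rw [hdeg]; exact Nat.card_pos)
  refine mem_of_res_ambient (laurentReduction π (P'.fld φ')) hπ (P'.jj_transcendental φ' hφ')
    (x := P'.jj φ' hφ') (xb := jAt (1 : kˣ) (M0 * N')) ?_ (transcendental_jAt 1 _) hle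
    (by rw [hdeg, P'.finrank_jj φ' hφ']) (exists_res_gens P' φ' hφ' P φ h e he he') rfl hfg
  rw [← redF_modIncl_jm P' φ' hφ' P h, ← red_jm P.ξ P.hξ φ]
  exact res_redF P' φ' hφ' φ h e he he' _

/-- The model. -/
def frameModel [IsAlgClosed L] [IsAlgClosed k] (hπ : Surjective π) :
    Specialization.Model π (P'.fld φ') (P.fld φ) where
  toReduction := (laurentReduction π (P'.fld φ')).codRestrict (P.fld φ)
    fun _ _ hfg => res_mem_fld P' φ' hφ' P φ hφ h e he he' hπ hfg
  surj := hπ
  x := P'.jj φ' hφ'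
  xb := P.jj φ hφ
  x_res := Reduction.codRestrict_res.2 (by
    rw [← redF_modIncl_jm P' φ' hφ' P h]
    exact res_redF P' φ' hφ' φ h e he he' _)
  transcendental := P.jj_transcendental φ hφ
  finrank_eq := by rw [P'.finrank_jj φ' hφ', P.finrank_jj φ hφ]
  gen := gen_codRestrict _ _ _ (exists_res_gens P' φ' hφ' P φ h e he he') rfl

theorem frameModel_res [IsAlgClosed L] [IsAlgClosed k] (hπ : Surjective π) {f : P'.fld φ'}
    {g : P.fld φ} : (frameModel P' φ' hφ' P φ hφ h e he he' hπ).Res f g ↔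
      (laurentReduction π (P'.fld φ')).Res f (g : LaurentSeries k) :=
  Reduction.codRestrict_res (h := fun _ _ hfg => res_mem_fld P' φ' hφ' P φ hφ h e he he' hπ hfg)

/-- The model is smooth. -/
theorem frameModel_smooth [IsAlgClosed L] [IsAlgClosed k]
    [Curves.IsFunctionField L (P'.fld φ')] [Curves.IsFunctionField k (P.fld φ)]
    (hπ : Surjective π) : (frameModel P' φ' hφ' P φ hφ h e he he' hπ).Smooth := by
  refine smooth_of_rGenus_le _ (le_of_eq ?_)
  have h0 : (2 * ((M0 * M0 + M0 : ℕ) : ℤ)) ≠ 0 := by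
    have := NeZero.ne M0
    positivity
  have h1 := mul_left_cancel₀ h0 ((P'.two_rGenus φ' hφ').trans (P.two_rGenus φ hφ).symm)
  linarith

end Model

end FLTAgent.DeligneSerre
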