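import Fermat.Agent.DeligneSerre.Interface
import Fermat.Agent.DeligneSerre.Smooth.Fixed
import Fermat.Agent.DeligneSerre.Smooth.Lift
import Fermat.Agent.Mazur.PointFam
import Fermat.Agent.Kronecker.Cover

/-!
# The field of `Γ₁(n)` inside the field of level `±Γ(n)`

The substitution `q ↦ q^n` identifies any `Field1 n` with the subfield of the level `±Γ(n)` field
fixed by translation by `T`.
-/

set_option autoImplicit false
set_option linter.unusedSectionVars false
set_option linter.style.haveILetI false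
set_option maxHeartbeats 1600000
set_option synthInstance.maxHeartbeats 400000

noncomputable section

open UpperHalfPlane hiding I I_re I_im
open Filter Topology Complex Function FLTAgent.ModEq FLTAgent.GoodModel ModularCurve
open FLTAgent.X0Fn (PerL expL iota)
open scoped MatrixGroups IntermediateField

namespace FLTAgent.DeligneSerre

section Twist

theorem exists_qExpand_of_twist {K : Type*} [Field K] {n : ℕ} [NeZero n] {ζ : Kˣ}
    (hζ : IsPrimitiveRoot ζ n) {f : LaurentSeries K} (h : twist ζ f = f) :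
    ∃ g, qExpand K n g = f := by
  refine Mazur.exists_qExpand_eq fun k hk => ?_
  have h1 := congrArg (fun F : LaurentSeries K => F.coeff k) h
  simp only [twist_coeff] at h1
  by_contra h0
  refine hk ((hζ.zpow_eq_one_iff_dvd k).1 (Units.ext ?_))
  rw [Units.val_one]
  exact mul_right_cancel₀ h0 (h1.trans (one_mul _).symm)

theorem twist_fix_qExpand {R : Type*} [CommRing R] {n : ℕ} [NeZero n] {ζ : Rˣ} (hζ : ζ ^ n = 1)
    (g : LaurentSeries R) : twist ζ (qExpand R n g) = qExpand R n g := by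
  rw [twist_qExpand, hζ, twist_one]

end Twist

variable {S : Subring ℂ} {M0 N' : ℕ} [NeZero M0] [NeZero N'] [NeZero (M0 * N')]

theorem Frame.coe_psi_T (P : Frame S M0 N') {K : Type} [Field K] (φ : S →+* K)
    (hφ : Surjective φ) (z : P.fld φ) :
    (P.psi φ hφ ModularGroup.T z : LaurentSeries K) =
      twist (Units.map (φ : S →* K) P.ξ) (z : LaurentSeries K) := by
  obtain ⟨a, b, -, rfl⟩ := P.exists_frac φ hφ z
  rw [map_div₀, P.psi_redF, P.psi_redF]
  simp only [IntermediateField.coe_div, P.coe_redF, map_div₀, red_transl_T φ P.ξ P.hξ]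

theorem Frame.fixed_iff_twist (P : Frame S M0 N') {K : Type} [Field K] (φ : S →+* K)
    (hφ : Surjective φ) (z : P.fld φ) : z ∈ P.fixedFld φ hφ (pmGamma1 (M0 * N')) ↔
      twist (Units.map (φ : S →* K) P.ξ) (z : LaurentSeries K) = (z : LaurentSeries K) := by
  constructor
  · intro hz
    have h := (P.mem_fixedFld φ hφ).1 hz _ (inv_mem (T_mem_pmGamma1 _))
    rw [P.act_apply, inv_inv] at h
    rw [← P.coe_psi_T φ hφ, h]
  · intro hz
    refine P.mem_fixedFld_of_T φ hφ ?_
    have h : P.psi φ hφ ModularGroup.T z = z := Subtype.ext ((P.coe_psi_T φ hφ z).trans hz)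
    conv_lhs => rw [← h]
    rw [P.act_apply, P.psi_psi, mul_inv_cancel, P.psi_one]

local notation "LL" => AlgebraicClosure ℚ

variable (κ : LL →+* ℂ)

/-- The constants inside `ℂ`. -/
def rangeEquiv : LL ≃+* κ.range :=
  RingEquiv.ofBijective κ.rangeRestrict
    ⟨fun _ _ h => κ.injective (congrArg Subtype.val h), κ.rangeRestrict_surjective⟩

/-- The constants as algebraic numbers. -/
def toLL : κ.range →+* LL := (rangeEquiv κ).symm.toRingHom

theorem apply_toLL (s : κ.range) : κ (toLL κ s) = (s : ℂ) :=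
  congrArg Subtype.val ((rangeEquiv κ).apply_symm_apply s)

theorem toLL_surjective : Surjective (toLL κ) := (rangeEquiv κ).symm.surjective

theorem toLL_injective : Injective (toLL κ) := (rangeEquiv κ).symm.injective

theorem map_red_toLL {n : ℕ} [NeZero n] (f : modRing κ.range n) :
    coeffMap κ (red (toLL κ) f) = sIncl κ.range (serM f) := by
  rw [red, RingHom.comp_apply, coeffMap_coeffMap]
  congr 2
  exact RingHom.ext (apply_toLL κ)

theorem compg_mem_PerL {n : ℕ} [NeZero n] (f : modRing S n) (g : SL(2, ℤ)) :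
    compg g (f : ℍ → ℂ) ∈ PerL (n : ℝ) := by
  obtain ⟨G, hG⟩ := mem_trRing.mp f.2.1 g
  obtain ⟨h1, h2⟩ := mem_sPairs.mp hG
  refine Mazur.mem_PerL_of_hasExp h1 (fun τ => ?_) h2
  have hT : ModularGroup.T ^ (n : ℤ) ∈ CongruenceSubgroup.Gamma n := by
    rw [CongruenceSubgroup.Gamma_mem]
    simp [ModularGroup.coe_T_zpow, -zpow_natCast]
  have h3 := compg_mem_gammaInv f.2.2 g _ hT τ
  rwa [UpperHalfPlane.modular_T_zpow_smul, Int.cast_natCast] at h3

/-- An invariant function as an element of `W1`. -/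
theorem exists_W1 {n : ℕ} [NeZero n] (f : modRing S n) (hf : f ∈ invRing (pmGamma1 n)) :
    ∃ w : W1 n, (w : ℍ → ℂ) = (f : ℍ → ℂ) ∧ expW1 n w = sIncl S (serM f) := by
  have hmem : (f : ℍ → ℂ) ∈ W1 n :=
    ⟨(mem_sPairs.mp (serM_spec f)).1, fun γ hγ τ =>
      congrFun (congrArg Subtype.val (mem_invRing.mp hf γ (Subgroup.mem_sup_left hγ))) τ,
      fun g => compg_mem_PerL f g⟩
  refine ⟨⟨_, hmem⟩, rfl, ?_⟩
  have h1 := Mazur.hasExp_expL (N := n) (Subalgebra.inclusion W1_le_PerL (⟨_, hmem⟩ : W1 n))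
  exact h1.unique (mem_sPairs.mp (serM_spec f)).2

variable {κ}
variable (P : Frame κ.range M0 N')

theorem toLL_root_pow :
    Units.map (toLL κ : κ.range →* LL) P.ξ ^ (M0 * N') = 1 := by
  rw [← map_pow, zeta_pow P.ξ P.hξ, map_one]

/-- A fixed element of the field of level `±Γ(n)` comes from the field of `Γ₁(n)`. -/
theorem exists_mem_of_fixed (D : Field1 (M0 * N') κ) {z : P.fld (toLL κ)}
    (hz : z ∈ P.fixedFld (toLL κ) (toLL_surjective κ) (pmGamma1 (M0 * N'))) :
    ∃ g, g ∈ D.F ∧ qExpand LL (M0 * N') g = (z : LaurentSeries LL) := by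
  obtain ⟨g, hg⟩ := exists_qExpand_of_twist (isPrimitiveRoot_map (toLL κ) P.ξ P.hξ P.hv)
    ((P.fixed_iff_twist (toLL κ) (toLL_surjective κ) z).1 hz)
  refine ⟨g, ?_, hg⟩
  obtain ⟨a, b, ha, hb, hb0, hab⟩ :=
    P.exists_inv_frac (toLL κ) (toLL_surjective κ) (toLL_injective κ) hz
  obtain ⟨wa, -, hwa⟩ := exists_W1 a ha
  obtain ⟨wb, hwb', hwb⟩ := exists_W1 b hb
  refine (D.mem_iff g).2 ⟨wa, wb, fun h0 => hb0 (Subtype.ext ?_), ?_⟩
  · rw [← hwb', h0]; rfl
  · have h := congrArg (coeffMap κ) (congrArg Subtype.val hab)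
    rw [IntermediateField.coe_mul, map_mul, P.coe_redF, P.coe_redF, map_red_toLL, map_red_toLL,
      ← hwa, ← hwb, ← hg, coeffMap_qExpand] at h
    exact h.symm

/-- Every element of the field of `Γ₁(n)` is a fixed element of the field of level `±Γ(n)`. -/
theorem exists_fixed_of_mem (D : Field1 (M0 * N') κ) {x : LaurentSeries LL} (hx : x ∈ D.F) :
    ∃ z : P.fld (toLL κ), z ∈ P.fixedFld (toLL κ) (toLL_surjective κ) (pmGamma1 (M0 * N')) ∧
      qExpand LL (M0 * N') x = (z : LaurentSeries LL) := by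
  classical
  set φ := toLL κ
  set E := P.fixedFld φ (toLL_surjective κ) (pmGamma1 (M0 * N'))
  set jE : E := ⟨P.jj φ (toLL_surjective κ), P.jj_mem_fixedFld φ (toLL_surjective κ) _⟩
  set jD : D.F := ⟨jqModC LL, D.j_mem⟩
  choose g hgD hg using fun z : E => exists_mem_of_fixed P D z.2
  let f : E →ₐ[LL] D.F :=
    { toFun := fun z => ⟨g z, hgD z⟩
      map_one' := Subtype.ext (qExpand_injective _ ((hg 1).trans (by simp)))
      map_zero' := Subtype.ext (qExpand_injective _ ((hg 0).trans (by simp)))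
      map_mul' := fun a b => Subtype.ext (qExpand_injective _ ((hg (a * b)).trans (by
        simp [map_mul, hg])))
      map_add' := fun a b => Subtype.ext (qExpand_injective _ ((hg (a + b)).trans (by
        simp [map_add, hg])))
      commutes' := fun c => Subtype.ext (qExpand_injective _ ((hg _).trans (by
        show algebraMap LL (LaurentSeries LL) c =
          qExpand LL (M0 * N') (algebraMap LL (LaurentSeries LL) c)
        rw [algebraMap_laurentSeries_eq_single, qExpand_single, mul_zero]))) }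
  have hfj : f jE = jD := by
    refine Subtype.ext (qExpand_injective _ ((hg jE).trans ?_))
    show (P.jj φ (toLL_surjective κ) : LaurentSeries LL) = _
    rw [P.coe_jj, jAt_one_left]
    rfl
  letI := f.toRingHom.toAlgebra
  haveI : IsScalarTower LL E D.F := IsScalarTower.of_algebraMap_eq fun c => (f.commutes c).symm
  have hmap : LL⟮jE⟯.map (IsScalarTower.toAlgHom LL E D.F) = LL⟮jD⟯ := by
    rw [IntermediateField.adjoin_map, Set.image_singleton]
    exact congrArg _ (congrArg _ hfj)
  let e : LL⟮jE⟯ ≃ₐ[LL] LL⟮jD⟯ :=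
    (LL⟮jE⟯.equivMap (IsScalarTower.toAlgHom LL E D.F)).trans (IntermediateField.equivOfEq hmap)
  have h1 : Module.finrank LL⟮jE⟯ D.F = Module.finrank LL⟮jD⟯ D.F :=
    Algebra.finrank_eq_of_equiv_equiv e.toRingEquiv (RingEquiv.refl D.F) (RingHom.ext fun _ => rfl)
  have h2 := Module.finrank_mul_finrank LL⟮jE⟯ E D.F
  rw [h1, P.finrank_fixedFld φ (toLL_surjective κ) (pmGamma_le_pmGamma1 _),
    show Module.finrank LL⟮jD⟯ D.F = _ from D.finrank_j] at h2
  have h3 : Module.finrank E D.F = 1 :=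
    Nat.eq_of_mul_eq_mul_left (Nat.card_pos (α := SL(2, ℤ) ⧸ pmGamma1 (M0 * N')))
      (h2.trans (mul_one _).symm)
  obtain ⟨c, hc⟩ := (finrank_eq_one_iff_of_nonzero' (1 : D.F) one_ne_zero).1 h3 ⟨x, hx⟩
  rw [Algebra.smul_def, mul_one] at hc
  refine ⟨c, c.2, ?_⟩
  rw [← hg c]
  congr 1
  exact congrArg Subtype.val hc.symm

end FLTAgent.DeligneSerre
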