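import Fermat.Agent.DeligneSerre.Smooth.Level
import Fermat.Agent.Specialization.ModularField

/-!
# The field of level `±Γ(n)` in every characteristic prime to `n`

It is generated by reductions of functions of level `n`, and `SL(2, ℤ)` acts on it by translation.
-/

set_option autoImplicit false
set_option linter.unusedSectionVars false
set_option linter.style.haveILetI false
set_option maxHeartbeats 800000
set_option synthInstance.maxHeartbeats 100000

noncomputable section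

open UpperHalfPlane hiding I I_re I_im
open Filter Topology Complex Function FLTAgent.ModEq FLTAgent.GoodModel ModularCurve
open scoped MatrixGroups IntermediateField

namespace FLTAgent.DeligneSerre

/-- A level `n = M₀ N'` over a subring of `ℂ`, with its root of unity and coordinate. -/
structure Frame (S : Subring ℂ) (M0 N' : ℕ) [NeZero M0] [NeZero N'] where
  hM : M0 = 2 ∨ M0 = 3
  hn : 3 ≤ M0 * N'
  ξ : Sˣ
  hξ : ((ξ : S) : ℂ) = zetaN (M0 * N')
  hv : IsUnit ((M0 * N' : ℕ) : S)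
  C : Coordinate S M0 N'

variable {S : Subring ℂ} {M0 N' : ℕ} [NeZero M0] [NeZero N'] [NeZero (M0 * N')]
  (P : Frame S M0 N') {K : Type} [Field K] (φ : S →+* K)

/-- The field of level `±Γ(n)`. -/
abbrev Frame.fld : IntermediateField K (LaurentSeries K) :=
  levelField φ (fullGens P.hM P.ξ P.hξ P.hv P.C)

variable (hφ : Surjective φ)

include hφ in
theorem Frame.spec :
    (∀ f : modRing S (M0 * N'), red φ f ∈ P.fld φ) ∧
    Module.finrank (baseField K (M0 * N'))
        (IntermediateField.extendScalars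
          (baseField_le_levelField φ (fullGens P.hM P.ξ P.hξ P.hv P.C))) =
      Nat.card (SL(2, ℤ) ⧸ pmGamma (M0 * N')) := by
  classical
  haveI : Fintype (SL(2, ℤ) ⧸ pmGamma (M0 * N')) := Subgroup.fintypeQuotientOfFiniteIndex
  obtain ⟨h1, h2⟩ := levelField_spec φ P.ξ P.hξ P.hv hφ
    (separates_fullGens P.hM P.ξ P.hξ P.hv P.C φ P.hn)
  exact ⟨fun f => h1 (toInv f), h2⟩

/-- The reduction of a function of level `n` in the field. -/
def Frame.redF : modRing S (M0 * N') →+* P.fld φ :=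
  (red φ).codRestrict (P.fld φ) (P.spec φ hφ).1

@[simp] theorem Frame.coe_redF (f : modRing S (M0 * N')) :
    (P.redF φ hφ f : LaurentSeries K) = red φ f := rfl

theorem Frame.redF_constM (c : S) :
    P.redF φ hφ (constM c) = algebraMap K (P.fld φ) (φ c) := by
  refine Subtype.ext ?_
  rw [P.coe_redF, red_constM]
  exact (algebraMap_laurentSeries_eq_single K (φ c)).symm

include hφ in
theorem Frame.exists_frac (z : P.fld φ) : ∃ a b : modRing S (M0 * N'),
    P.redF φ hφ b ≠ 0 ∧ z = P.redF φ hφ a / P.redF φ hφ b := by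
  suffices h : ∃ a b : modRing S (M0 * N'),
      red φ b ≠ 0 ∧ (z : LaurentSeries K) = red φ a / red φ b by
    obtain ⟨a, b, h1, h2⟩ := h
    exact ⟨a, b, fun h0 => h1 (congrArg Subtype.val h0), Subtype.ext h2⟩
  have h1 : ∀ f : modRing S (M0 * N'), ∃ a b : modRing S (M0 * N'),
      red φ b ≠ 0 ∧ red φ f = red φ a / red φ b :=
    fun f => ⟨f, 1, by rw [map_one]; exact one_ne_zero, by rw [map_one, div_one]⟩
  obtain ⟨z, hz⟩ := z
  show ∃ a b : modRing S (M0 * N'), red φ b ≠ 0 ∧ z = red φ a / red φ b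
  induction hz using IntermediateField.adjoin_induction with
  | mem z hz =>
    rcases hz with rfl | ⟨f, -, rfl⟩
    · exact red_jm P.ξ P.hξ φ ▸ h1 (jm P.ξ P.hξ)
    · exact h1 _
  | algebraMap c =>
    obtain ⟨s, rfl⟩ := hφ c
    obtain ⟨a, b, hb, he⟩ := h1 (constM s)
    refine ⟨a, b, hb, ?_⟩
    rw [← he, red_constM, algebraMap_laurentSeries_eq_single]
    rfl
  | add x y _ _ hx hy =>
    obtain ⟨a, b, hb, rfl⟩ := hx
    obtain ⟨a', b', hb', rfl⟩ := hy
    refine ⟨a * b' + b * a', b * b', by rw [map_mul]; exact mul_ne_zero hb hb', ?_⟩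
    rw [div_add_div _ _ hb hb']
    simp only [map_add, map_mul]
  | inv x _ hx =>
    obtain ⟨a, b, hb, rfl⟩ := hx
    by_cases ha : red φ a = 0
    · exact ⟨0, 1, by rw [map_one]; exact one_ne_zero,
        by rw [ha, zero_div, inv_zero, map_zero, zero_div]⟩
    · exact ⟨b, a, ha, inv_div _ _⟩
  | mul x y _ _ hx hy =>
    obtain ⟨a, b, hb, rfl⟩ := hx
    obtain ⟨a', b', hb', rfl⟩ := hy
    exact ⟨a * a', b * b', by rw [map_mul]; exact mul_ne_zero hb hb',
      by rw [map_mul, map_mul, div_mul_div_comm]⟩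

theorem Frame.redF_transl_ne (g : SL(2, ℤ)) {f : modRing S (M0 * N')}
    (h : P.redF φ hφ f ≠ 0) : P.redF φ hφ (transl g f) ≠ 0 := fun h0 =>
  h (Subtype.ext ((red_transl_eq_zero φ P.ξ P.hξ P.hv g).1 (congrArg Subtype.val h0)))

/-- The translate of an element of the field. -/
def Frame.psiFun (g : SL(2, ℤ)) (z : P.fld φ) : P.fld φ :=
  P.redF φ hφ (transl g (P.exists_frac φ hφ z).choose) /
    P.redF φ hφ (transl g (P.exists_frac φ hφ z).choose_spec.choose)

theorem Frame.psiFun_eq (g : SL(2, ℤ)) {z : P.fld φ} {a b : modRing S (M0 * N')}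
    (hb : P.redF φ hφ b ≠ 0) (h : z = P.redF φ hφ a / P.redF φ hφ b) :
    P.psiFun φ hφ g z = P.redF φ hφ (transl g a) / P.redF φ hφ (transl g b) := by
  obtain ⟨hb', h'⟩ := (P.exists_frac φ hφ z).choose_spec.choose_spec
  rw [Frame.psiFun, div_eq_div_iff (P.redF_transl_ne φ hφ g hb') (P.redF_transl_ne φ hφ g hb),
    ← map_mul, ← map_mul, ← map_mul, ← map_mul, ← sub_eq_zero, ← map_sub, ← map_sub]
  have h1 := h'.symm.trans h
  rw [div_eq_div_iff hb' hb, ← map_mul, ← map_mul, ← sub_eq_zero, ← map_sub] at h1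
  exact Subtype.ext ((red_transl_eq_zero φ P.ξ P.hξ P.hv g).2 (congrArg Subtype.val h1))

theorem Frame.psiFun_redF (g : SL(2, ℤ)) (f : modRing S (M0 * N')) :
    P.psiFun φ hφ g (P.redF φ hφ f) = P.redF φ hφ (transl g f) := by
  rw [P.psiFun_eq φ hφ g (a := f) (b := 1) (by rw [map_one]; exact one_ne_zero)
    (by rw [map_one, div_one]), map_one, map_one, div_one]

/-- Translation on the field. -/
def Frame.psi (g : SL(2, ℤ)) : P.fld φ →ₐ[K] P.fld φ where
  toFun := P.psiFun φ hφ g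
  map_one' := by rw [← map_one (P.redF φ hφ), P.psiFun_redF, map_one]
  map_zero' := by rw [← map_zero (P.redF φ hφ), P.psiFun_redF, map_zero]
  map_mul' x y := by
    obtain ⟨a, b, hb, rfl⟩ := P.exists_frac φ hφ x
    obtain ⟨a', b', hb', rfl⟩ := P.exists_frac φ hφ y
    rw [P.psiFun_eq φ hφ g (a := a * a') (b := b * b')
      (by rw [map_mul]; exact mul_ne_zero hb hb') (by rw [map_mul, map_mul, div_mul_div_comm]),
      P.psiFun_eq φ hφ g hb rfl, P.psiFun_eq φ hφ g hb' rfl, div_mul_div_comm]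
    simp only [map_mul]
  map_add' x y := by
    obtain ⟨a, b, hb, rfl⟩ := P.exists_frac φ hφ x
    obtain ⟨a', b', hb', rfl⟩ := P.exists_frac φ hφ y
    rw [P.psiFun_eq φ hφ g (a := a * b' + b * a') (b := b * b')
      (by rw [map_mul]; exact mul_ne_zero hb hb')
      (by rw [div_add_div _ _ hb hb']; simp only [map_add, map_mul]),
      P.psiFun_eq φ hφ g hb rfl, P.psiFun_eq φ hφ g hb' rfl,
      div_add_div _ _ (P.redF_transl_ne φ hφ g hb) (P.redF_transl_ne φ hφ g hb')]
    simp only [map_add, map_mul]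
  commutes' c := by
    obtain ⟨s, rfl⟩ := hφ c
    rw [← P.redF_constM φ hφ, P.psiFun_redF, transl_constM]

theorem Frame.psi_redF (g : SL(2, ℤ)) (f : modRing S (M0 * N')) :
    P.psi φ hφ g (P.redF φ hφ f) = P.redF φ hφ (transl g f) := P.psiFun_redF φ hφ g f

theorem Frame.psi_psi (g h : SL(2, ℤ)) (z : P.fld φ) :
    P.psi φ hφ g (P.psi φ hφ h z) = P.psi φ hφ (h * g) z := by
  obtain ⟨a, b, -, rfl⟩ := P.exists_frac φ hφ z
  simp only [map_div₀, P.psi_redF, transl_transl]

theorem Frame.psi_one (z : P.fld φ) : P.psi φ hφ 1 z = z := by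
  obtain ⟨a, b, -, rfl⟩ := P.exists_frac φ hφ z
  simp only [map_div₀, P.psi_redF, transl_one]

theorem Frame.psi_of_mem {g : SL(2, ℤ)} (hg : g ∈ pmGamma (M0 * N')) (z : P.fld φ) :
    P.psi φ hφ g z = z := by
  obtain ⟨a, b, -, rfl⟩ := P.exists_frac φ hφ z
  simp only [map_div₀, P.psi_redF, transl_of_mem_pmGamma hg]

/-- The action of `SL(2, ℤ)`. -/
def Frame.act : SL(2, ℤ) →* (P.fld φ ≃ₐ[K] P.fld φ) where
  toFun g := AlgEquiv.ofAlgHom (P.psi φ hφ g⁻¹) (P.psi φ hφ g)
    (AlgHom.ext fun z => by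
      show P.psi φ hφ g⁻¹ (P.psi φ hφ g z) = z
      rw [P.psi_psi, mul_inv_cancel, P.psi_one])
    (AlgHom.ext fun z => by
      show P.psi φ hφ g (P.psi φ hφ g⁻¹ z) = z
      rw [P.psi_psi, inv_mul_cancel, P.psi_one])
  map_one' := AlgEquiv.ext fun z => by
    show P.psi φ hφ 1⁻¹ z = z
    rw [inv_one, P.psi_one]
  map_mul' g h := AlgEquiv.ext fun z => by
    show P.psi φ hφ (g * h)⁻¹ z = P.psi φ hφ g⁻¹ (P.psi φ hφ h⁻¹ z)
    rw [P.psi_psi, mul_inv_rev]

theorem Frame.act_apply (g : SL(2, ℤ)) (z : P.fld φ) :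
    P.act φ hφ g z = P.psi φ hφ g⁻¹ z := rfl

theorem Frame.act_redF (g : SL(2, ℤ)) (f : modRing S (M0 * N')) :
    P.act φ hφ g (P.redF φ hφ f) = P.redF φ hφ (transl g⁻¹ f) := P.psi_redF φ hφ g⁻¹ f

theorem Frame.pmGamma_le_ker : pmGamma (M0 * N') ≤ (P.act φ hφ).ker := fun _ hg =>
  MonoidHom.mem_ker.mpr (AlgEquiv.ext fun z => P.psi_of_mem φ hφ (inv_mem hg) z)

/-- The action of the finite group. -/
def Frame.actQ : SL(2, ℤ) ⧸ pmGamma (M0 * N') →* (P.fld φ ≃ₐ[K] P.fld φ) :=
  QuotientGroup.lift _ (P.act φ hφ) (P.pmGamma_le_ker φ hφ)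

theorem Frame.actQ_mk (g : SL(2, ℤ)) :
    P.actQ φ hφ (g : SL(2, ℤ) ⧸ pmGamma (M0 * N')) = P.act φ hφ g := rfl

theorem Frame.actQ_injective : Injective (P.actQ φ hφ) := by
  rw [injective_iff_map_eq_one]
  intro q
  induction q using QuotientGroup.induction_on with
  | H g =>
    intro hg
    rw [P.actQ_mk] at hg
    rw [QuotientGroup.eq_one_iff, ← inv_mem_iff]
    refine separates_fullGens P.hM P.ξ P.hξ P.hv P.C φ P.hn g⁻¹ fun f _ => ?_
    have h := congrArg Subtype.val
      ((P.act_redF φ hφ g (f : modRing S (M0 * N'))).symm.trans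
        (DFunLike.congr_fun hg (P.redF φ hφ (f : modRing S (M0 * N')))))
    exact h

/-- The invariant `j` in the field. -/
def Frame.jj : P.fld φ := P.redF φ hφ (jm P.ξ P.hξ)

/-- The coordinate in the field. -/
def Frame.xx : P.fld φ := P.redF φ hφ (hhM P.C)

theorem Frame.coe_jj : (P.jj φ hφ : LaurentSeries K) = jAt (1 : Kˣ) (M0 * N') :=
  red_jm P.ξ P.hξ φ

theorem Frame.act_jj (g : SL(2, ℤ)) : P.act φ hφ g (P.jj φ hφ) = P.jj φ hφ := by
  rw [Frame.jj, P.act_redF, transl_jm]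

theorem Frame.jj_transcendental : Transcendental K (P.jj φ hφ) :=
  Specialization.transcendental_coe (by rw [P.coe_jj]; exact transcendental_jAt 1 _)

theorem Frame.finrank_jj : Module.finrank K⟮P.jj φ hφ⟯ (P.fld φ) =
    Nat.card (SL(2, ℤ) ⧸ pmGamma (M0 * N')) := by
  have h := (P.spec φ hφ).2
  generalize hj : P.jj φ hφ = j
  have hj' : (j : LaurentSeries K) = jAt (1 : Kˣ) (M0 * N') := hj ▸ P.coe_jj φ hφ
  obtain ⟨j, hjm⟩ := j
  replace hj' : j = jAt (1 : Kˣ) (M0 * N') := hj'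
  subst hj'
  rw [Specialization.finrank_adjoin_coe ⟨_, hjm⟩
    (baseField_le_levelField φ (fullGens P.hM P.ξ P.hξ P.hv P.C))]
  exact h

theorem Frame.finiteDimensional_jj : FiniteDimensional K⟮P.jj φ hφ⟯ (P.fld φ) :=
  Module.finite_of_finrank_pos (by rw [P.finrank_jj φ hφ]; exact Nat.card_pos)

include hφ in
theorem Frame.isFunctionField : Curves.IsFunctionField K (P.fld φ) :=
  Curves.IsFunctionField.mk_of (P.jj φ hφ) (P.jj_transcendental φ hφ)
    (P.finiteDimensional_jj φ hφ)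

end FLTAgent.DeligneSerre
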