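import Fermat.Agent.DeligneSerre.Smooth.Full

/-!
# The coordinate in the field of level `±Γ(n)`

The field is Galois over the field of `j`, the coordinate has degree `M₀² + M₀` over it, and
`j` is a rational function of the coordinate.
-/

set_option autoImplicit false
set_option linter.unusedSectionVars false
set_option linter.style.haveILetI false
set_option maxHeartbeats 800000
set_option synthInstance.maxHeartbeats 100000

noncomputable section

open UpperHalfPlane hiding I I_re I_im
open Filter Topology Complex Function FLTAgent.ModEq FLTAgent.GoodModel ModularCurve Polynomial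
open scoped MatrixGroups IntermediateField

namespace FLTAgent.DeligneSerre

section Generic

variable {K F : Type*} [Field K] [Field F] [Algebra K F]

/-- A field with as many automorphisms over a subfield as its degree is separable over it. -/
theorem separable_of_autos (G : Subgroup (F ≃ₐ[K] F)) [Finite G] (E : IntermediateField K F)
    (hE : ∀ g ∈ G, ∀ z ∈ E, g z = z) [FiniteDimensional E F]
    (h : Module.finrank E F ≤ Nat.card G) : Algebra.IsSeparable E F := by
  classical
  haveI : Fintype G := Fintype.ofFinite G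
  set E' : IntermediateField K F := IntermediateField.fixedField G
  have hle : E ≤ E' := fun z hz g => hE g g.2 z hz
  have hE' : Module.finrank E' F = Fintype.card G := FixedPoints.finrank_eq_card G F
  have heq : E = E' := IntermediateField.eq_of_le_of_finrank_le' hle
    (by rw [hE', ← Nat.card_eq_fintype_card]; exact h)
  have : Algebra.IsSeparable (FixedPoints.subfield G F) F := inferInstance
  subst heq
  exact this

/-- The degree of a root of `j Q(X) - P(X)`. -/
theorem minpoly_natDegree_le {j x : F} (hj : Transcendental K j) {P Q : K[X]} (hQ : Q.Monic)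
    (h : j * aeval x Q = aeval x P) :
    IsIntegral K⟮j⟯ x ∧ (minpoly K⟮j⟯ x).natDegree ≤ max Q.natDegree P.natDegree := by
  classical
  set jE : K⟮j⟯ := ⟨j, IntermediateField.mem_adjoin_simple_self K j⟩
  set R : K⟮j⟯[X] := C jE * Q.map (algebraMap K K⟮j⟯) - P.map (algebraMap K K⟮j⟯) with hR
  have hR0 : R ≠ 0 := by
    intro h0
    have h1 := congrArg (fun p : K⟮j⟯[X] => ((p.coeff Q.natDegree : K⟮j⟯) : F)) h0
    simp only [hR, coeff_sub, coeff_C_mul, coeff_map, hQ.coeff_natDegree, map_one, mul_one,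
      coeff_zero, AddSubgroupClass.coe_sub, ZeroMemClass.coe_zero] at h1
    have h2 : j = algebraMap K F (P.coeff Q.natDegree) := sub_eq_zero.1 h1
    exact hj (h2 ▸ isAlgebraic_algebraMap _)
  have hroot : aeval x R = 0 := by
    rw [hR, map_sub, map_mul, aeval_C, aeval_map_algebraMap, aeval_map_algebraMap]
    show j * aeval x Q - aeval x P = 0
    rw [h, sub_self]
  have halg : IsAlgebraic K⟮j⟯ x := ⟨R, hR0, hroot⟩
  refine ⟨halg.isIntegral, ?_⟩
  refine (natDegree_le_natDegree (minpoly.degree_le_of_ne_zero _ _ hR0 hroot)).trans ?_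
  refine natDegree_sub_le_of_le ?_ (natDegree_map_le.trans le_rfl)
  exact (natDegree_C_mul_le _ _).trans natDegree_map_le

/-- Automorphisms fixing `j` with distinct values at `x` bound the degree of `x` from below. -/
theorem card_le_minpoly {j x : F} (hint : IsIntegral K⟮j⟯ x) {ι : Type*} [Fintype ι]
    (σ : ι → (F ≃ₐ[K] F)) (hj : ∀ i, σ i j = j) (hinj : Injective fun i => σ i x) :
    Fintype.card ι ≤ (minpoly K⟮j⟯ x).natDegree := by
  classical
  set m := minpoly K⟮j⟯ x
  have hfix : ∀ i, ∀ z ∈ K⟮j⟯, σ i z = z := fun i z hz => by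
    induction hz using IntermediateField.adjoin_induction with
    | mem z hz => rw [Set.mem_singleton_iff.1 hz, hj]
    | algebraMap c => exact AlgEquiv.commutes _ c
    | add x y _ _ hx hy => rw [map_add, hx, hy]
    | inv x _ hx => rw [map_inv₀, hx]
    | mul x y _ _ hx hy => rw [map_mul, hx, hy]
  have h1 : Finset.univ.image (fun i => σ i x) ⊆ (m.map (algebraMap K⟮j⟯ F)).roots.toFinset := by
    intro z hz
    obtain ⟨i, -, rfl⟩ := Finset.mem_image.1 hz
    rw [Multiset.mem_toFinset, mem_roots (map_ne_zero (minpoly.ne_zero hint)), IsRoot.def, eval_map]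
    have h := congrArg (σ i : F →+* F) (minpoly.aeval K⟮j⟯ x)
    rw [map_zero, aeval_def, hom_eval₂] at h
    refine Eq.trans ?_ h
    congr 1
    exact RingHom.ext fun z => (hfix i z z.2).symm
  have h2 := (Finset.card_le_card h1).trans (Multiset.toFinset_card_le _)
  rw [Finset.card_image_of_injective _ hinj, Finset.card_univ] at h2
  exact h2.trans ((card_roots' _).trans natDegree_map_le)

/-- The degree over `K(x)` when `j` is a function of `x`. -/
theorem minpoly_mul_finrank {j x : F} (hint : IsIntegral K⟮j⟯ x) (hjx : j ∈ K⟮x⟯) :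
    (minpoly K⟮j⟯ x).natDegree * Module.finrank K⟮x⟯ F = Module.finrank K⟮j⟯ F := by
  have hle : K⟮j⟯ ≤ K⟮x⟯ := IntermediateField.adjoin_simple_le_iff.2 hjx
  have hext : IntermediateField.extendScalars hle = K⟮j⟯⟮x⟯ := by
    refine IntermediateField.restrictScalars_injective K ?_
    rw [IntermediateField.extendScalars_restrictScalars,
      IntermediateField.adjoin_simple_adjoin_simple]
    refine le_antisymm (IntermediateField.adjoin_simple_le_iff.2
      (IntermediateField.subset_adjoin K _ (Set.mem_insert_of_mem _ rfl))) ?_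
    rw [IntermediateField.adjoin_le_iff]
    rintro z (rfl | rfl)
    · exact hjx
    · exact IntermediateField.mem_adjoin_simple_self K z
  rw [← IntermediateField.adjoin.finrank hint, ← hext]
  exact Module.finrank_mul_finrank K⟮j⟯ (IntermediateField.extendScalars hle) F

end Generic

variable {S : Subring ℂ} {M0 N' : ℕ} [NeZero M0] [NeZero N'] [NeZero (M0 * N')]
  (P : Frame S M0 N') {K : Type} [Field K] (φ : S →+* K) (hφ : Surjective φ)

/-- The reduced values of the coordinate at the cusps. -/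
def Frame.cval (i : Fin M0) : K := φ (P.C.c i)

theorem Frame.cval_injective : Injective (P.cval φ) := fun i j h => by
  by_contra hne
  refine ((P.C.isUnit_c i j hne).map φ).ne_zero ?_
  rw [map_sub, sub_eq_zero]
  exact h

/-- The denominator of `j`. -/
def Frame.qP : K[X] := ∏ i, (X - Polynomial.C (P.cval φ i)) ^ M0

theorem Frame.monic_qP : (P.qP φ).Monic :=
  monic_prod_of_monic _ _ fun _ _ => (monic_X_sub_C _).pow _

theorem Frame.natDegree_qP : (P.qP φ).natDegree = M0 * M0 := by
  rw [Frame.qP, natDegree_prod_of_monic _ _ fun _ _ => (monic_X_sub_C _).pow _]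
  simp

theorem Frame.exists_rel : ∃ R : K[X], R.natDegree ≤ M0 * M0 + M0 ∧
    P.jj φ hφ * aeval (P.xx φ hφ) (P.qP φ) = aeval (P.xx φ hφ) R := by
  obtain ⟨R, hR, hrel⟩ := P.C.rel
  refine ⟨R.map φ, natDegree_map_le.trans hR, ?_⟩
  have hx : (P.fld φ).val (P.xx φ hφ) = coeffMap φ P.C.H := red_eq φ (f := hhM P.C) P.C.pair
  have key : ∀ p : Polynomial S, (coeffMap φ) (p.eval₂ HahnSeries.C P.C.H) =
      aeval ((P.fld φ).val (P.xx φ hφ)) (p.map φ) := fun p => by
    rw [hx, aeval_def, eval₂_map, hom_eval₂]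
    congr 1
    refine RingHom.ext fun c => ?_
    rw [RingHom.comp_apply, RingHom.comp_apply, algebraMap_laurentSeries_eq_single,
      HahnSeries.C_apply, coeffMap_single]
  have h := congrArg (coeffMap φ) hrel
  rw [map_mul, key, key, coeffMap_jAt, map_one] at h
  suffices h' : (P.fld φ).val (P.jj φ hφ * aeval (P.xx φ hφ) (P.qP φ)) =
      (P.fld φ).val (aeval (P.xx φ hφ) (R.map φ)) from Subtype.ext h'
  rw [map_mul, ← aeval_algHom_apply, ← aeval_algHom_apply]
  refine Eq.trans ?_ h
  congr 1
  · exact P.coe_jj φ hφ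
  · congr 1
    simp [Frame.qP, Frame.cval, Polynomial.map_prod]

theorem Frame.act_xx_ne {g : SL(2, ℤ)} (hg : g ∉ pmGamma M0) :
    P.act φ hφ g (P.xx φ hφ) ≠ P.xx φ hφ := fun h => by
  rw [Frame.xx, P.act_redF] at h
  exact red_transl_hhM_ne P.C φ (g := g⁻¹) (by rwa [inv_mem_iff]) (congrArg Subtype.val h)

theorem Frame.act_xx {g : SL(2, ℤ)} (hg : g ∈ pmGamma M0) :
    P.act φ hφ g (P.xx φ hφ) = P.xx φ hφ := by
  rw [Frame.xx, P.act_redF, transl_hhM _ (inv_mem hg)]

theorem Frame.xx_transcendental [IsAlgClosed K] : Transcendental K (P.xx φ hφ) := by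
  refine Curves.transcendental_of_ne_algebraMap fun c hc => ?_
  have hS : ModularGroup.S ∉ pmGamma M0 := by
    intro h
    have h1 : (1 : ZMod M0) ≠ 0 := by rcases P.hM with h | h <;> subst h <;> decide
    rcases h with h | h <;> have h2 := (CongruenceSubgroup.Gamma_mem.mp h).1 <;>
      simp [Matrix.SpecialLinearGroup.coe_neg, ModularGroup.coe_S] at h2 <;> exact h1 h2.symm
  exact P.act_xx_ne φ hφ hS (by rw [hc, AlgEquiv.commutes])

theorem Frame.act_fix (g : SL(2, ℤ)) {z : P.fld φ} (hz : z ∈ K⟮P.jj φ hφ⟯) :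
    P.act φ hφ g z = z := by
  induction hz using IntermediateField.adjoin_induction with
  | mem z hz => rw [Set.mem_singleton_iff.1 hz, P.act_jj]
  | algebraMap c => exact AlgEquiv.commutes _ c
  | add x y _ _ hx hy => rw [map_add, hx, hy]
  | inv x _ hx => rw [map_inv₀, hx]
  | mul x y _ _ hx hy => rw [map_mul, hx, hy]

/-- The index of `±Γ(M₀)`, the degree of the coordinate over `j`, and nondegeneracy of the
relation. -/
theorem Frame.index_spec [IsAlgClosed K] :
    (pmGamma M0).index = M0 * M0 + M0 ∧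
    (minpoly K⟮P.jj φ hφ⟯ (P.xx φ hφ)).natDegree = M0 * M0 + M0 ∧
    ∃ R : K[X], R.natDegree = M0 * M0 + M0 ∧ (∀ i, R.eval (P.cval φ i) ≠ 0) ∧
      P.jj φ hφ * aeval (P.xx φ hφ) (P.qP φ) = aeval (P.xx φ hφ) R := by
  classical
  obtain ⟨R, hR, hrel⟩ := P.exists_rel φ hφ
  have hj := P.jj_transcendental φ hφ
  obtain ⟨hint, hle⟩ := minpoly_natDegree_le hj (P.monic_qP φ) hrel
  set m := minpoly K⟮P.jj φ hφ⟯ (P.xx φ hφ) with hm
  let conj : SL(2, ℤ) ⧸ pmGamma M0 → P.fld φ := fun q => P.act φ hφ q.out (P.xx φ hφ)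
  have hconj : Injective conj := fun q q' h => by
    rw [← q.out_eq, ← q'.out_eq]
    refine (QuotientGroup.eq.2 ?_).symm
    by_contra hn
    refine P.act_xx_ne φ hφ hn ?_
    rw [map_mul, AlgEquiv.mul_apply, show P.act φ hφ q.out (P.xx φ hφ) = _ from h,
      ← AlgEquiv.mul_apply, ← map_mul, inv_mul_cancel, map_one, AlgEquiv.one_apply]
  haveI : Fintype (SL(2, ℤ) ⧸ pmGamma M0) := Subgroup.fintypeQuotientOfFiniteIndex
  have hup : (pmGamma M0).index ≤ m.natDegree := by
    rw [Subgroup.index, Nat.card_eq_fintype_card]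
    exact card_le_minpoly hint (fun q => P.act φ hφ q.out) (fun q => P.act_jj φ hφ _) hconj
  have hlow : M0 * M0 + M0 ≤ (pmGamma M0).index := by
    have := Nat.card_le_card_of_injective
      (fun a => ((baseRep M0 a : SL(2, ℤ)) : SL(2, ℤ) ⧸ pmGamma M0))
      fun a b h => baseRep_injective P.hM a b (QuotientGroup.eq.1 h)
    simpa [Nat.card_eq_fintype_card, Fintype.card_prod, Fintype.card_option, add_mul,
      Subgroup.index] using this
  rw [P.natDegree_qP] at hle
  have hM1 : 1 ≤ M0 := Nat.pos_of_ne_zero (NeZero.ne M0)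
  refine ⟨by omega, by omega, R, by omega, fun i hi => ?_, hrel⟩
  obtain ⟨R', rfl⟩ := dvd_iff_isRoot.2 hi
  set c := P.cval φ i
  set Q' := (X - Polynomial.C c) ^ (M0 - 1) * ∏ k ∈ Finset.univ.erase i, (X - Polynomial.C (P.cval φ k)) ^ M0
  have hQ : P.qP φ = (X - Polynomial.C c) * Q' := by
    rw [Frame.qP, ← mul_assoc, ← pow_succ', Nat.sub_add_cancel hM1]
    exact (Finset.mul_prod_erase _ _ (Finset.mem_univ i)).symm
  have hQ' : Q'.Monic := (monic_X_sub_C c).of_mul_monic_left (hQ ▸ P.monic_qP φ)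
  have hx0 : P.xx φ hφ - algebraMap K (P.fld φ) c ≠ 0 :=
    sub_ne_zero.2 fun h => P.xx_transcendental φ hφ (h ▸ isAlgebraic_algebraMap c)
  clear_value Q'
  simp only [hQ, map_mul, map_sub, aeval_X, aeval_C] at hrel
  rw [mul_left_comm] at hrel
  have e : P.jj φ hφ * aeval (P.xx φ hφ) Q' = aeval (P.xx φ hφ) R' := mul_left_cancel₀ hx0 hrel
  obtain ⟨-, hle'⟩ := minpoly_natDegree_le (P := R') hj hQ' e
  rw [← hm] at hle'
  have hdQ : Q'.natDegree + 1 = M0 * M0 := by
    rw [← P.natDegree_qP φ, hQ, natDegree_mul (X_sub_C_ne_zero c) hQ'.ne_zero, natDegree_X_sub_C,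
      add_comm]
  have hR' : R'.natDegree + 1 ≤ max (M0 * M0 + M0) 1 := by
    rcases eq_or_ne R' 0 with h0 | h0
    · simp [h0]
    · rw [natDegree_mul (X_sub_C_ne_zero c) h0, natDegree_X_sub_C] at hR
      omega
  omega

theorem Frame.finrank_xx [IsAlgClosed K] :
    Module.finrank K⟮P.xx φ hφ⟯ (P.fld φ) =
      Nat.card ((pmGamma M0).map (QuotientGroup.mk' (pmGamma (M0 * N')))) := by
  classical
  obtain ⟨hidx, hdeg, R, -, -, hrel⟩ := P.index_spec φ hφ
  set x := P.xx φ hφ
  set j := P.jj φ hφ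
  have hne : aeval x (P.qP φ) ≠ 0 :=
    Curves.aeval_ne_zero (P.xx_transcendental φ hφ) (P.monic_qP φ).ne_zero
  have hjx : j ∈ K⟮x⟯ := by
    rw [eq_div_of_mul_eq hne hrel]
    exact div_mem (IntermediateField.algebra_adjoin_le_adjoin K _ (aeval_mem_adjoin_singleton K _))
      (IntermediateField.algebra_adjoin_le_adjoin K _ (aeval_mem_adjoin_singleton K _))
  have h2 := minpoly_mul_finrank (minpoly_natDegree_le (P.jj_transcendental φ hφ) (P.monic_qP φ) hrel).1 hjx
  rw [hdeg, P.finrank_jj φ hφ] at h2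
  have h3 := Subgroup.card_mul_index ((pmGamma M0).map (QuotientGroup.mk' (pmGamma (M0 * N'))))
  rw [Subgroup.index_map_eq _ (QuotientGroup.mk'_surjective _)
    (by rw [QuotientGroup.ker_mk']; exact pmGamma_mono (dvd_mul_right M0 N')), hidx] at h3
  have hpos : 0 < M0 * M0 + M0 := by have := NeZero.ne M0; omega
  refine Nat.eq_of_mul_eq_mul_left hpos (h2.trans ?_)
  rw [← h3, mul_comm]

/-- The group fixing the coordinate. -/
def Frame.autX : Subgroup (P.fld φ ≃ₐ[K] P.fld φ) :=
  ((pmGamma M0).map (QuotientGroup.mk' (pmGamma (M0 * N')))).map (P.actQ φ hφ)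

theorem Frame.card_autX : Nat.card (P.autX φ hφ) =
    Nat.card ((pmGamma M0).map (QuotientGroup.mk' (pmGamma (M0 * N')))) :=
  (Nat.card_congr ((Subgroup.equivMapOfInjective _ _ (P.actQ_injective φ hφ)).toEquiv)).symm

theorem Frame.isSeparable_xx [IsAlgClosed K] :
    Algebra.IsSeparable K⟮P.xx φ hφ⟯ (P.fld φ) := by
  haveI := P.isFunctionField φ hφ
  haveI := Curves.finiteDimensional_adjoin (K := K) (P.xx_transcendental φ hφ)
  haveI : Finite (P.autX φ hφ) := Nat.finite_of_card_ne_zero (by
    rw [P.card_autX]; exact Nat.card_pos.ne')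
  refine separable_of_autos (P.autX φ hφ) _ ?_ (by rw [P.finrank_xx, P.card_autX])
  rintro _ ⟨_, ⟨g, hg, rfl⟩, rfl⟩ z hz
  show P.act φ hφ g z = z
  induction hz using IntermediateField.adjoin_induction with
  | mem z hz => rw [Set.mem_singleton_iff.1 hz, P.act_xx φ hφ hg]
  | algebraMap c => exact AlgEquiv.commutes _ c
  | add x y _ _ hx hy => rw [map_add, hx, hy]
  | inv x _ hx => rw [map_inv₀, hx]
  | mul x y _ _ hx hy => rw [map_mul, hx, hy]

end FLTAgent.DeligneSerre
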