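import Fermat.Agent.DeligneSerre.Smooth.Galois
import Fermat.Agent.DeligneSerre.Smooth.Abstract
import Fermat.Agent.Curves.Orbits

/-!
# The genus of the field of level `±Γ(n)`

The coordinate is unramified off the poles of `j`, which are the orbits of translation by `T`,
so the genus does not depend on the characteristic.
-/

set_option autoImplicit false
set_option linter.unusedSectionVars false
set_option linter.style.haveILetI false
set_option maxHeartbeats 800000
set_option synthInstance.maxHeartbeats 100000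

noncomputable section

open UpperHalfPlane hiding I I_re I_im
open Filter Topology Complex Function FLTAgent.ModEq FLTAgent.GoodModel ModularCurve Polynomial
open AlgebraicCurve FLTAgent.Curves
open scoped MatrixGroups IntermediateField

namespace FLTAgent.DeligneSerre

/-- A root of a monic polynomial with integral coefficients is integral. -/
theorem ordGE_of_monic_root {K F : Type*} [Field K] [Field F] [Algebra K F] {v : Place K F}
    {f : F} {Q : F[X]} (hQ : Q.Monic) (hc : ∀ i, OrdGE v 0 (Q.coeff i)) (h : Q.eval f = 0) :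
    OrdGE v 0 f := by
  by_contra hcon
  have hf0 : f ≠ 0 := fun h0 => hcon (Or.inl h0)
  have hneg : v.ord f < 0 := not_le.1 fun h0 => hcon (ordGE_of_le h0)
  rw [eval_eq_sum_range, Finset.sum_range_succ, hQ.coeff_natDegree, one_mul, add_comm,
    add_eq_zero_iff_eq_neg] at h
  set d := Q.natDegree
  have h1 : OrdGE v (((d : ℤ) - 1) * v.ord f) (∑ i ∈ Finset.range d, Q.coeff i * f ^ i) := by
    refine OrdGE.sum fun i hi => ?_
    have hid : (i : ℤ) + 1 ≤ d := by exact_mod_cast Finset.mem_range.1 hi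
    refine ((hc i).mul (ordGE_of_le (Curves.ord_pow v f i).ge)).mono ?_
    nlinarith
  have h2 : OrdGE v (((d : ℤ) - 1) * v.ord f) (f ^ d) := h ▸ h1.neg
  have h3 := h2.le_ord (pow_ne_zero _ hf0)
  rw [Curves.ord_pow] at h3
  nlinarith

theorem order_inv_jAt {K : Type*} [Field K] (n : ℕ) [NeZero n] :
    ((jAt (1 : Kˣ) n)⁻¹).order = (n : ℤ) := by
  have h : (jAt (1 : Kˣ) n).coeff (-(n : ℤ)) ≠ 0 := by rw [jAt_coeff_neg]; exact Units.ne_zero _
  have h0 : jAt (1 : Kˣ) n ≠ 0 := fun e => h (by rw [e]; rfl)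
  have ho : (jAt (1 : Kˣ) n).order = -(n : ℤ) :=
    le_antisymm (HahnSeries.order_le_of_coeff_ne_zero h)
      ((HahnSeries.le_order_iff_forall h0).2 fun _ hk => jAt_coeff_of_lt 1 n hk)
  rw [lord_inv, ho, neg_neg]

theorem order_twist {K : Type*} [Field K] (u : Kˣ) (f : LaurentSeries K) :
    (twist u f).order = f.order := by
  rcases eq_or_ne f 0 with rfl | hf
  · rw [map_zero]
  refine le_antisymm (HahnSeries.order_le_of_coeff_ne_zero ?_)
    ((HahnSeries.le_order_iff_forall ((map_ne_zero (twist u)).2 hf)).2 fun k hk => ?_)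
  · rw [twist_coeff]
    exact mul_ne_zero (Units.ne_zero _) (mt HahnSeries.coeff_order_eq_zero.1 hf)
  · rw [twist_coeff, HahnSeries.coeff_eq_zero_of_lt_order hk, mul_zero]

/-- Translation by `T⁻¹` on the cosets. -/
def tShift (n : ℕ) : Equiv.Perm (SL(2, ℤ) ⧸ pmGamma n) :=
  Equiv.mulLeft ((ModularGroup.T⁻¹ : SL(2, ℤ)) : SL(2, ℤ) ⧸ pmGamma n)

theorem tShift_pow_fix {n : ℕ} {d : ℕ} {q : SL(2, ℤ) ⧸ pmGamma n}
    (h : (tShift n ^ d) q = q) : (n : ℤ) ∣ d := by
  rw [tShift, Equiv.pow_mulLeft, Equiv.coe_mulLeft, mul_eq_right, ← QuotientGroup.mk_pow,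
    QuotientGroup.eq_one_iff, inv_pow, inv_mem_iff, ← zpow_natCast] at h
  rw [← ZMod.intCast_zmod_eq_zero_iff_dvd]
  rcases h with h | h <;> have h2 := (CongruenceSubgroup.Gamma_mem.mp h).2.1 <;>
    simpa [ModularGroup.coe_T_zpow, Matrix.SpecialLinearGroup.coe_neg, -zpow_natCast] using h2

/-- The number of orbits of translation. -/
def numOrbits (n : ℕ) : ℕ := Nat.card (Quot (tShift n).SameCycle)

variable {S : Subring ℂ} {M0 N' : ℕ} [NeZero M0] [NeZero N'] [NeZero (M0 * N')]
  (P : Frame S M0 N') {K : Type} [Field K] (φ : S →+* K) (hφ : Surjective φ)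

theorem Frame.act_tShift (q : SL(2, ℤ) ⧸ pmGamma (M0 * N')) (z : P.fld φ) :
    (P.actQ φ hφ (tShift _ q) z : LaurentSeries K) =
      twist (Units.map (φ : S →* K) P.ξ) (P.actQ φ hφ q z : LaurentSeries K) := by
  obtain ⟨g, rfl⟩ := QuotientGroup.mk_surjective q
  simp only [tShift, Equiv.coe_mulLeft]
  rw [← QuotientGroup.mk_mul, P.actQ_mk, P.actQ_mk, map_mul,
    AlgEquiv.mul_apply]
  generalize P.act φ hφ g z = y
  obtain ⟨a, b, -, rfl⟩ := P.exists_frac φ hφ y
  rw [map_div₀, P.act_redF, P.act_redF, inv_inv]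
  simp only [IntermediateField.coe_div, P.coe_redF, map_div₀, red_transl_T φ P.ξ P.hξ]

include hφ in
/-- Functions of level `n` are regular where `j` is. -/
theorem Frame.ordGE_redF (f : modRing S (M0 * N')) {v : Place K (P.fld φ)}
    (hv : 0 ≤ v.ord (P.jj φ hφ)) : OrdGE v 0 (P.redF φ hφ f) := by
  classical
  haveI : Fintype (SL(2, ℤ) ⧸ pmGamma (M0 * N')) := Subgroup.fintypeQuotientOfFiniteIndex
  set Q : Polynomial (modRing S (M0 * N')) :=
    ∏ q : SL(2, ℤ) ⧸ pmGamma (M0 * N'), (X - Polynomial.C (tr q (toInv f))) with hQ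
  have hQinv : ∀ s, Q.map (transl s) = Q := by
    intro s
    conv_rhs => rw [hQ, ← image_smul_univ s⁻¹,
      Finset.prod_image fun a _ b _ h => MulAction.injective s⁻¹ h]
    rw [hQ, Polynomial.map_prod]
    exact Finset.prod_congr rfl fun q _ => by
      rw [Polynomial.map_sub, Polynomial.map_X, Polynomial.map_C, transl_tr]
  have hmon : Q.Monic := monic_prod_of_monic _ _ fun _ _ => monic_X_sub_C _
  refine ordGE_of_monic_root (hmon.map (P.redF φ hφ)) (fun i => ?_) ?_
  · obtain ⟨R, hR⟩ := exists_poly_of_fixed P.ξ P.hξ (f := Q.coeff i) fun s => by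
      rw [← coeff_map, hQinv]
    have hc : (P.redF φ hφ).comp (constM (M := M0 * N')) =
        (algebraMap K (P.fld φ)).comp φ := RingHom.ext (P.redF_constM φ hφ)
    rw [coeff_map, ← hR, hom_eval₂, hc, ← eval₂_map, ← aeval_def]
    exact ordGE_aeval hv _
  · rw [eval_map, hQ, eval₂_finsetProd]
    refine Finset.prod_eq_zero (i := ((1 : SL(2, ℤ)) : SL(2, ℤ) ⧸ pmGamma (M0 * N')))
      (Finset.mem_univ _) ?_
    rw [eval₂_sub, eval₂_X, eval₂_C, tr_one, coe_toInv, sub_self]

variable [IsAlgClosed K]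

theorem Frame.natCast_ne_zero (φ : S →+* K) (P : Frame S M0 N') : ((M0 * N' : ℕ) : K) ≠ 0 := by
  rw [← map_natCast φ]
  exact (P.hv.map φ).ne_zero

include hφ in
/-- The genus in terms of indices and orbits. -/
theorem Frame.two_rGenus [Curves.IsFunctionField K (P.fld φ)] :
    2 * ((M0 * M0 + M0 : ℕ) : ℤ) * (Specialization.rGenus K (P.fld φ) - 1) =
      ((M0 : ℤ) - 1) * Nat.card (SL(2, ℤ) ⧸ pmGamma (M0 * N')) -
        ((M0 * M0 + M0 : ℕ) : ℤ) * numOrbits (M0 * N') := by
  classical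
  haveI := P.isSeparable_xx φ hφ
  obtain ⟨hidx, -, R, hRdeg, hRc, hrel⟩ := P.index_spec φ hφ
  set x := P.xx φ hφ
  set j := P.jj φ hφ
  set c := P.cval φ
  have hx : Transcendental K x := P.xx_transcendental φ hφ
  have hj : Transcendental K j := P.jj_transcendental φ hφ
  have hR0 : R ≠ 0 := fun h => by
    rw [h, natDegree_zero] at hRdeg
    have := NeZero.ne M0
    omega
  have hQ : ∀ v : Place K (P.fld φ), aeval x (P.qP φ) ≠ 0 ∧ v.ord (aeval x (P.qP φ)) =
      ∑ i, (M0 : ℤ) * v.ord (x - algebraMap K (P.fld φ) (c i)) :=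
    fun v => ord_aeval_prod_sub hx v Finset.univ c fun _ => M0
  have hordj : ∀ v : Place K (P.fld φ),
      v.ord j + v.ord (aeval x (P.qP φ)) = v.ord (aeval x R) := fun v => by
    rw [← v.ord_mul (ne_zero_of_transcendental hj) (hQ v).1, hrel]
  have hinf : ∀ v : Place K (P.fld φ), v.ord x < 0 → v.ord j = (M0 : ℤ) * v.ord x := by
    intro v hv
    have h1 := hordj v
    rw [(ord_aeval_of_neg hv hR0).1, (ord_aeval_of_neg hv (P.monic_qP φ).ne_zero).1, hRdeg,
      P.natDegree_qP] at h1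
    push_cast at h1
    linarith
  have hcusp : ∀ (v : Place K (P.fld φ)) i, 0 < v.ord (x - algebraMap K (P.fld φ) (c i)) →
      v.ord j = -((M0 : ℤ) * v.ord (x - algebraMap K (P.fld φ) (c i))) := by
    intro v i hi
    have hP : v.ord (aeval x R) = 0 := by
      have e : aeval x R = aeval (x - algebraMap K (P.fld φ) (c i))
          (R.comp (X + Polynomial.C (c i))) := by rw [aeval_comp]; simp
      rw [e]
      exact (ord_aeval_eq_zero hi (p := R.comp (X + Polynomial.C (c i)))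
        (by rw [coeff_zero_eq_eval_zero, eval_comp]; simpa using hRc i)).1
    have h1 := hordj v
    rw [hP, (hQ v).2, Finset.sum_eq_single i (fun k _ hk => ?_) (by simp)] at h1
    · linarith
    rw [ord_sub_eq_zero hx (ord_nonneg_of_sub hi) fun hk' => hk (P.cval_injective φ ?_), mul_zero]
    have h := (ordGE_of_le (show (1 : ℤ) ≤ _ from hk')).sub (ordGE_of_le (show (1 : ℤ) ≤ _ from hi))
    rw [sub_sub_sub_cancel_left, ← map_sub] at h
    rcases h with h | h
    · exact (sub_eq_zero.1 ((map_eq_zero_iff _ (algebraMap K (P.fld φ)).injective).1 h)).symm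
    · rw [ord_algebraMap] at h; omega
  have hfin : ∀ v : Place K (P.fld φ), 0 ≤ v.ord x →
      (∀ i, ¬ 0 < v.ord (x - algebraMap K (P.fld φ) (c i))) → 0 ≤ v.ord j := by
    intro v hv hc'
    have h1 := hordj v
    rw [(hQ v).2, Finset.sum_eq_zero fun i _ => by rw [ord_sub_eq_zero hx hv (hc' i), mul_zero]]
      at h1
    linarith [(ordGE_aeval hv R).le_ord (Curves.aeval_ne_zero hx hR0)]
  -- the poles of `j`
  haveI : Fintype (SL(2, ℤ) ⧸ pmGamma (M0 * N')) := Subgroup.fintypeQuotientOfFiniteIndex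
  let σe : SL(2, ℤ) ⧸ pmGamma (M0 * N') → P.fld φ →+* LaurentSeries K := fun q =>
    ((P.fld φ).val : P.fld φ →+* LaurentSeries K).comp
      (P.actQ φ hφ q : P.fld φ →+* P.fld φ)
  have hn0 := P.natCast_ne_zero φ
  have hT : ((jAt (1 : Kˣ) (M0 * N'))⁻¹).order = ((M0 * N' : ℕ) : ℤ) := order_inv_jAt _
  obtain ⟨pl, hpos, hcover, hsame, hc⟩ := exists_place_map_of_tame
    (κ := RingHom.id K) σe
    (fun q a => by
      show ((P.actQ φ hφ q (algebraMap K (P.fld φ) a) : P.fld φ) : LaurentSeries K) = _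
      rw [AlgEquiv.commutes]
      exact algebraMap_laurentSeries_eq_single K a)
    (fun q q' h => P.actQ_injective φ hφ (AlgEquiv.ext fun z =>
      Subtype.ext (DFunLike.congr_fun h z)))
    (t := j⁻¹) (by rw [finrank_adjoin_inv, P.finrank_jj φ hφ, Nat.card_eq_fintype_card])
    (T := (jAt (1 : Kˣ) (M0 * N'))⁻¹)
    (fun q => by
      obtain ⟨g, rfl⟩ := QuotientGroup.mk_surjective q
      show ((P.actQ φ hφ g j⁻¹ : P.fld φ) : LaurentSeries K) = _
      rw [map_inv₀, P.actQ_mk, P.act_jj, IntermediateField.coe_inv, P.coe_jj])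
    (by rw [hT]; exact_mod_cast Nat.pos_of_ne_zero (NeZero.ne (M0 * N')))
    (by rw [hT, Int.cast_natCast]; exact hn0)
    (tShift (M0 * N'))
    (fun q f => by
      show ((P.actQ φ hφ (tShift _ q) f : P.fld φ) : LaurentSeries K).order = _
      rw [P.act_tShift, order_twist]
      rfl)
    (fun q d hd f => by rw [hT]; exact dvd_mul_of_dvd_left (tShift_pow_fix hd) _)
  set s := Finset.univ.image pl
  have hs : ∀ v : Place K (P.fld φ), v ∈ s ↔ v.ord j < 0 := fun v => by
    constructor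
    · intro h
      obtain ⟨q, -, rfl⟩ := Finset.mem_image.1 h
      have := hpos q
      rw [(pl q).ord_inv] at this
      omega
    · intro h
      obtain ⟨q, rfl⟩ := hcover v (by rw [v.ord_inv]; omega)
      exact Finset.mem_image_of_mem _ (Finset.mem_univ q)
  have hscard : s.card = numOrbits (M0 * N') := by
    rw [numOrbits, ← Nat.card_eq_finsetCard]
    refine (Nat.card_congr (Equiv.ofBijective (Quot.lift
      (fun q => (⟨pl q, Finset.mem_image_of_mem _ (Finset.mem_univ q)⟩ : s))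
      fun a b h => Subtype.ext ((hsame a b).2 h)) ⟨?_, ?_⟩)).symm
    · rintro ⟨a⟩ ⟨b⟩ h
      exact Quot.sound ((hsame a b).1 (congrArg Subtype.val h))
    · rintro ⟨v, hv⟩
      obtain ⟨q, -, rfl⟩ := Finset.mem_image.1 hv
      exact ⟨Quot.mk _ q, rfl⟩
  have hdvd : ∀ v ∈ s, v.ord j ∣ ((M0 * N' : ℕ) : ℤ) := by
    intro v hv
    obtain ⟨q, -, rfl⟩ := Finset.mem_image.1 hv
    obtain ⟨e, -, he⟩ := hc q
    refine ⟨-e, ?_⟩
    have h1 := he j⁻¹
    have h2 : (σe q j⁻¹) = (jAt (1 : Kˣ) (M0 * N'))⁻¹ := by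
      obtain ⟨g, rfl⟩ := QuotientGroup.mk_surjective q
      show ((P.actQ φ hφ g j⁻¹ : P.fld φ) : LaurentSeries K) = _
      rw [map_inv₀, P.actQ_mk, P.act_jj, IntermediateField.coe_inv, P.coe_jj]
    rw [h2, hT, (pl q).ord_inv] at h1
    rw [h1]
    ring
  have hbr : ∀ v, v ∈ s ↔ v.ord x < 0 ∨ ∃ i, 0 < v.ord (x - algebraMap K (P.fld φ) (c i)) := by
    intro v
    have hM1 : (1 : ℤ) ≤ M0 := by exact_mod_cast Nat.pos_of_ne_zero (NeZero.ne M0)
    rw [hs]
    constructor
    · intro h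
      by_contra! hcon
      exact absurd (hfin v hcon.1 fun i => not_lt.2 (hcon.2 i)) (not_le.2 h)
    · rintro (h | ⟨i, hi⟩)
      · rw [hinf v h]; nlinarith
      · rw [hcusp v i hi]; nlinarith
  have htame : ∀ v ∈ s, ((ramIdx x v : ℤ) : K) ≠ 0 := by
    intro v hv
    have h1 : ramIdx x v ∣ v.ord j := by
      rcases (hbr v).1 hv with h | ⟨i, hi⟩
      · rw [ramIdx, if_pos h, hinf v h]
        exact neg_dvd.2 (dvd_mul_left _ _)
      · rw [ramIdx_eq hx hi, hcusp v i hi]
        exact dvd_neg.2 (dvd_mul_left _ _)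
    obtain ⟨k, hk⟩ := h1.trans (hdvd v hv)
    intro h0
    have h2 := congrArg (fun z : ℤ => (z : K)) hk
    simp only [Int.cast_natCast, Int.cast_mul, h0, zero_mul] at h2
    exact hn0 h2
  -- unramified elsewhere
  set G0 := (pmGamma M0).map (QuotientGroup.mk' (pmGamma (M0 * N'))) with hG0
  haveI : Fintype G0 := Fintype.ofFinite _
  have hunr : ∀ v, v ∉ s → ramIdx x v = 1 := by
    intro v hv
    rw [hbr, not_or, not_exists] at hv
    have hvx : 0 ≤ v.ord x := not_lt.1 hv.1
    have hvj : 0 ≤ v.ord j := hfin v hvx hv.2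
    have hpos := ord_sub_placeValue_pos hx hvx
    rw [ramIdx_eq hx hpos]
    refine ord_eq_one_of_autos hx hpos (fun g : G0 => P.actQ φ hφ g) ?_
      (by rw [P.finrank_xx φ hφ, Nat.card_eq_fintype_card]) ?_
    · rintro ⟨_, g, hg, rfl⟩
      exact P.act_xx φ hφ hg
    · rintro ⟨_, a, ha, rfl⟩ ⟨_, b, hb, rfl⟩ hne
      have hab : a⁻¹ * b ∉ pmGamma (M0 * N') := fun h =>
        hne (Subtype.ext (QuotientGroup.eq.2 h))
      obtain ⟨p, hp, hmov⟩ := exists_moved P.hn hab
      have hmov' : ¬ PMEq (M0 * N') (vmul p a⁻¹) (vmul p b⁻¹) := fun h => hmov (by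
        have h' := h.vmul b
        rwa [← vmul_mul, ← vmul_mul, inv_mul_cancel, vmul_one] at h')
      obtain ⟨w, hw⟩ := exists_inv_sub P.hM P.ξ P.hξ P.hv (inv_mem ha) (inv_mem hb) ⟨p, hp⟩ hmov'
      set f := fvvM P.hM P.ξ P.hξ P.hv ⟨p, hp⟩
      have ea : P.actQ φ hφ (QuotientGroup.mk' _ a) (P.redF φ hφ f) =
          P.redF φ hφ (transl a⁻¹ f) := P.act_redF φ hφ a f
      have eb : P.actQ φ hφ (QuotientGroup.mk' _ b) (P.redF φ hφ f) =
          P.redF φ hφ (transl b⁻¹ f) := P.act_redF φ hφ b f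
      refine ⟨P.redF φ hφ f, ?_, ?_, ?_, ?_⟩
      · rw [show P.actQ φ hφ _ (P.redF φ hφ f) = _ from ea]; exact P.ordGE_redF φ hφ _ hvj
      · rw [show P.actQ φ hφ _ (P.redF φ hφ f) = _ from eb]; exact P.ordGE_redF φ hφ _ hvj
      · show P.actQ φ hφ (QuotientGroup.mk' _ a) _ ≠ P.actQ φ hφ (QuotientGroup.mk' _ b) _
        rw [ea, eb]
        intro h
        have h1 := congrArg (P.redF φ hφ) hw
        rw [map_mul, map_sub, h, sub_self, zero_mul, map_one] at h1
        exact zero_ne_one h1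
      · show v.ord (P.actQ φ hφ (QuotientGroup.mk' _ a) _ -
          P.actQ φ hφ (QuotientGroup.mk' _ b) _) = 0
        rw [ea, eb, ← map_sub]
        have h1 := congrArg (P.redF φ hφ) hw
        rw [map_mul, map_one] at h1
        have hA : P.redF φ hφ (transl a⁻¹ f - transl b⁻¹ f) ≠ 0 := left_ne_zero_of_mul_eq_one h1
        have hB : P.redF φ hφ w ≠ 0 := right_ne_zero_of_mul_eq_one h1
        have h2 := congrArg v.ord h1
        rw [v.ord_mul hA hB, v.ord_one] at h2
        have h3 := (P.ordGE_redF φ hφ (transl a⁻¹ f - transl b⁻¹ f) hvj).le_ord hA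
        have h4 := (P.ordGE_redF φ hφ w hvj).le_ord hB
        omega
  have h := two_rGenus_of_branch hx (P.cval_injective φ) hbr hunr htame
  rw [hscard, P.finrank_xx φ hφ] at h
  have h3 := Subgroup.card_mul_index G0
  rw [Subgroup.index_map_eq _ (QuotientGroup.mk'_surjective _)
    (by rw [QuotientGroup.ker_mk']; exact pmGamma_mono (dvd_mul_right M0 N')), hidx] at h3
  rw [← h3]
  push_cast
  linear_combination ((M0 : ℤ) * M0 + M0) * h

end FLTAgent.DeligneSerre
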