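import Fermat.Agent.DeligneSerre.Smooth.Descend
import Fermat.Agent.Specialization.Inputs
import Fermat.Agent.GoodModel.Final

/-!
# Good reduction of the field of `Γ₁(M)` away from the level
-/

set_option autoImplicit false
set_option linter.unusedSectionVars false
set_option linter.style.haveILetI false
set_option maxHeartbeats 1600000
set_option synthInstance.maxHeartbeats 400000

noncomputable section

open UpperHalfPlane hiding I I_re I_im
open Filter Topology Complex Function FLTAgent.ModEq FLTAgent.GoodModel ModularCurve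
open AlgebraicCurve FLTAgent.Curves IsLocalRing
open FLTAgent.Specialization (IsGauss laurentReduction gaussVal_eq coeffMap_subtype_injective)
open scoped MatrixGroups IntermediateField

namespace FLTAgent.DeligneSerre

section Gauss

variable {L k : Type*} [Field L] [Field k] {A : ValuationSubring L} {π : A →+* k}
  {E : IntermediateField L (LaurentSeries L)}

theorem res_of_gauss {f : E} {a b : LaurentSeries A} (h : IsGauss π (f : LaurentSeries L) a b) :
    (laurentReduction π E).Res f (coeffMap π a / coeffMap π b) :=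
  ⟨⟨a, b, h⟩, gaussVal_eq h⟩

theorem exists_gauss_of_res {f : E} {g : LaurentSeries k}
    (h : (laurentReduction π E).Res f g) : ∃ a b : LaurentSeries A,
      IsGauss π (f : LaurentSeries L) a b ∧ g = coeffMap π a / coeffMap π b := by
  obtain ⟨⟨a, b, hab⟩, hred⟩ := h
  exact ⟨a, b, hab, hred.symm.trans (gaussVal_eq hab)⟩

variable {n : ℕ} [NeZero n]

theorem exists_qExpand_of_twist_integral (ξ : Aˣ)
    (hξ : IsPrimitiveRoot (Units.map (A.subtype : A →* L) ξ) n) {a : LaurentSeries A}
    (h : twist ξ a = a) : ∃ y : LaurentSeries A, qExpand A n y = a := by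
  refine Mazur.exists_qExpand_eq fun k hk => ?_
  obtain ⟨g, hg⟩ := exists_qExpand_of_twist hξ (f := coeffMap A.subtype a)
    (by
      conv_rhs => rw [← h, coeffMap_twist]
      rfl)
  have h1 := congrArg (fun F : LaurentSeries L => F.coeff k) hg
  simp only [qExpand_coeff_of_not_dvd n _ hk, coeffMap_coeff] at h1
  exact Subtype.ext h1.symm

/-- A Gauss quotient in `q^(1/n)` of a series in `q` may be taken in `q`. -/
theorem exists_quot_of_gauss (ξ : Aˣ)
    (hξ : IsPrimitiveRoot (Units.map (A.subtype : A →* L) ξ) n) {z : LaurentSeries L}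
    {a b : LaurentSeries A} (h : IsGauss π (qExpand L n z) a b) (ha : coeffMap π a ≠ 0) :
    ∃ y y₁ : LaurentSeries A, coeffMap A.subtype y = z * coeffMap A.subtype y₁ ∧
      coeffMap π y ≠ 0 ∧ coeffMap π y₁ ≠ 0 := by
  classical
  obtain ⟨m, hm⟩ : ∃ m, n = m + 1 := ⟨n - 1, by have := NeZero.ne n; omega⟩
  have hξn : ξ ^ n = 1 := by
    refine Units.ext (Subtype.ext ?_)
    have := congrArg Units.val hξ.pow_eq_one
    simpa using this
  obtain ⟨b', hb'⟩ : ∃ b', b' = ∏ k ∈ Finset.range n, twist (ξ ^ k) b := ⟨_, rfl⟩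
  obtain ⟨a', ha'⟩ : ∃ a', a' = a * ∏ k ∈ Finset.range m, twist (ξ ^ (k + 1)) b := ⟨_, rfl⟩
  have hbs : b' = b * ∏ k ∈ Finset.range m, twist (ξ ^ (k + 1)) b := by
    rw [hb', show Finset.range n = Finset.range (m + 1) by rw [hm],
      Finset.prod_range_succ' (fun k => twist (ξ ^ k) b), pow_zero, twist_one, mul_comm]
  have hTb : twist ξ b' = b' := by
    rw [hb', map_prod]
    simp only [twist_twist, ← pow_succ']
    rw [show Finset.range n = Finset.range (m + 1) by rw [hm],
      Finset.prod_range_succ' (fun k => twist (ξ ^ k) b),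
      Finset.prod_range_succ (fun k => twist (ξ ^ (k + 1)) b)]
    congr 1
    rw [← hm, hξn, pow_zero]
  have hab : qExpand L n z * coeffMap A.subtype b' = coeffMap A.subtype a' := by
    rw [hbs, ha', map_mul, map_mul, ← h.2, mul_assoc]
  have hTa : twist ξ a' = a' := by
    refine coeffMap_subtype_injective A ?_
    rw [coeffMap_twist, ← hab, map_mul]
    congr 1
    · exact twist_fix_qExpand hξ.pow_eq_one z
    · exact (coeffMap_twist A.subtype ξ b').symm.trans (congrArg _ hTb)
  have hne : ∀ (c : LaurentSeries A) (u : Aˣ), coeffMap π c ≠ 0 → coeffMap π (twist u c) ≠ 0 :=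
    fun c u hc => by rw [coeffMap_twist]; exact (map_ne_zero _).2 hc
  have hP : coeffMap π (∏ k ∈ Finset.range m, twist (ξ ^ (k + 1)) b) ≠ 0 := by
    rw [map_prod]
    exact Finset.prod_ne_zero_iff.2 fun k _ => hne _ _ h.1
  obtain ⟨y, rfl⟩ := exists_qExpand_of_twist_integral ξ hξ hTa
  obtain ⟨y₁, rfl⟩ := exists_qExpand_of_twist_integral ξ hξ hTb
  refine ⟨y, y₁, qExpand_injective n ?_, fun h0 => ?_, fun h0 => ?_⟩
  · rw [map_mul, ← coeffMap_qExpand, ← coeffMap_qExpand]
    exact hab.symm
  · have h1 := congrArg (qExpand k n) h0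
    rw [← coeffMap_qExpand, ha', map_mul, map_zero] at h1
    exact mul_ne_zero ha hP h1
  · have h1 := congrArg (qExpand k n) h0
    rw [← coeffMap_qExpand, hbs, map_mul, map_zero] at h1
    exact mul_ne_zero h.1 hP h1

end Gauss

local notation "LL" => AlgebraicClosure ℚ

variable {κ : LL →+* ℂ}

/-- The frames at a place not dividing the level. -/
theorem exists_frames {M0 N' : ℕ} [NeZero M0] [NeZero N'] [NeZero (M0 * N')]
    (hM : M0 = 2 ∨ M0 = 3) (hn : 3 ≤ M0 * N') {ℓ : ℕ} [Fact ℓ.Prime] (hℓ : ¬ ℓ ∣ M0 * N')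
    {V : ValuationSubring LL} (hV : V.LiesOverPrime ℓ) :
    ∃ (S : Subring ℂ) (h : S ≤ κ.range) (_ : Frame κ.range M0 N') (_ : Frame S M0 N')
      (e : S ≃+* V) (ξ : Vˣ), (∀ s, (e s : LL) = toLL κ (Subring.inclusion h s)) ∧
        IsPrimitiveRoot (Units.map (V.subtype : V →* LL) ξ) (M0 * N') := by
  classical
  set S : Subring ℂ := V.toSubring.map κ with hS
  have hle : S ≤ κ.range := by
    rintro _ ⟨a, -, rfl⟩
    exact ⟨a, rfl⟩
  have hbij : Function.Bijective ((κ.comp V.subtype).codRestrict S fun a => ⟨a.1, a.2, rfl⟩) := by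
    refine ⟨fun a b hab => Subtype.ext (κ.injective (congrArg Subtype.val hab)), ?_⟩
    rintro ⟨_, a, ha, rfl⟩
    exact ⟨⟨a, ha⟩, rfl⟩
  set e : V ≃+* S := RingEquiv.ofBijective _ hbij
  have he : ∀ s : S, κ (e.symm s : LL) = (s : ℂ) := fun s =>
    congrArg Subtype.val (e.apply_symm_apply s)
  have hn0 : 0 < M0 * N' := Nat.pos_of_ne_zero (NeZero.ne _)
  obtain ⟨z, hz⟩ := HasEnoughRootsOfUnity.exists_primitiveRoot LL (M0 * N')
  obtain ⟨i, -, hi⟩ := (hz.map_of_injective κ.injective).eq_pow_of_pow_eq_one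
    (ξ := (zetaN (M0 * N') : ℂ)) (Complex.isPrimitiveRoot_exp _ (NeZero.ne (M0 * N'))).pow_eq_one
  have hzA : z ∈ V ∧ z⁻¹ ∈ V := by
    have h1 : z ^ (M0 * N' - 1) * z = 1 := by
      rw [← pow_succ, Nat.sub_add_cancel hn0, hz.pow_eq_one]
    have h2 : z⁻¹ = z ^ (M0 * N' - 1) := (eq_inv_of_mul_eq_one_left h1).symm
    rcases V.mem_or_inv_mem z with h | h
    · exact ⟨h, h2 ▸ pow_mem h _⟩
    · refine ⟨?_, h⟩
      have h3 : z = z⁻¹ ^ (M0 * N' - 1) := by rw [inv_pow, ← h2, inv_inv]
      rw [h3]
      exact pow_mem h _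
  let u : Vˣ := ⟨⟨z, hzA.1⟩, ⟨z⁻¹, hzA.2⟩, Subtype.ext (mul_inv_cancel₀ (hz.ne_zero hn0.ne')),
    Subtype.ext (inv_mul_cancel₀ (hz.ne_zero hn0.ne'))⟩
  set ζ : Sˣ := Units.map (e.toRingHom : V →* S) (u ^ i) with hζdef
  have hζ : ((ζ : S) : ℂ) = zetaN (M0 * N') := by
    rw [hζdef, Units.coe_map, MonoidHom.coe_coe, RingEquiv.toRingHom_eq_coe, RingHom.coe_coe,
      Units.val_pow_eq_pow_val, map_pow, SubmonoidClass.coe_pow, ← hi]
    rfl
  have hu : IsUnit ((M0 * N' : ℕ) : S) := by
    rw [← map_natCast e.toRingHom]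
    refine IsUnit.map _ ?_
    by_contra hnu
    exact Specialization.natCast_ne_zero_residue hV hℓ (by
      rw [← map_natCast (residue V)]
      exact (residue_eq_zero_iff _).2 hnu)
  obtain ⟨C⟩ := nonempty_coordinate ζ hM rfl hζ hu
  set ι := Subring.inclusion hle
  have hζ' : (((Units.map (ι : S →* κ.range) ζ : κ.rangeˣ) : κ.range) : ℂ) = zetaN (M0 * N') := hζ
  have hu' : IsUnit ((M0 * N' : ℕ) : κ.range) := by
    rw [← map_natCast ι]
    exact hu.map ι
  obtain ⟨C'⟩ := nonempty_coordinate _ hM rfl hζ' hu'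
  refine ⟨S, hle, ⟨hM, hn, _, hζ', hu', C'⟩, ⟨hM, hn, ζ, hζ, hu, C⟩, e.symm,
    Units.map (e.symm.toRingHom : S →* V) ζ, fun s => κ.injective ?_, ?_⟩
  · rw [he, apply_toLL]
    rfl
  · have hprim : IsPrimitiveRoot (Units.map (toLL κ : κ.range →* LL) (Units.map (ι : S →* κ.range) ζ))
        (M0 * N') := isPrimitiveRoot_map (toLL κ) _ hζ' hu'
    convert hprim using 1
    refine Units.ext (κ.injective ?_)
    show κ ((e.symm (ζ : S) : V) : LL) = κ (toLL κ (ι (ζ : S)))
    rw [he, apply_toLL]
    rfl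

theorem goodReduction1_at {M0 N' : ℕ} [NeZero M0] [NeZero N'] [NeZero (M0 * N')]
    (hM : M0 = 2 ∨ M0 = 3) (hn : 3 ≤ M0 * N') (D : Field1 (M0 * N') κ) :
    GoodReduction1 D := by
  classical
  refine ⟨fun ℓ hℓp hℓ V hV => ?_, fun ℓ hℓp hℓ V hV => ?_⟩
  all_goals haveI := Fact.mk hℓp
  all_goals haveI : IsAlgClosed (ResidueField V) := FrobTrace.isAlgClosed_residueField V
  all_goals obtain ⟨S, h, P', P, e, ξ, he, hξ⟩ := exists_frames (κ := κ) hM hn hℓ hV
  all_goals
    set φ : S →+* ResidueField V := (residue V).comp e.toRingHom with hφdef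
  all_goals have hφ : Surjective φ := residue_surjective.comp e.surjective
  all_goals have he' : ∀ s : S, (e.toRingHom s : LL) = toLL κ (Subring.inclusion h s) := he
  all_goals haveI := P'.isFunctionField (toLL κ) (toLL_surjective κ)
  all_goals haveI := P.isFunctionField φ hφ
  all_goals
    set Mo := frameModel (π := residue V) P' (toLL κ) (toLL_surjective κ) P φ hφ h e.toRingHom he'
      hφdef.symm residue_surjective with hMo
  · intro x hx
    obtain ⟨z, -, hzx⟩ := exists_fixed_of_mem P' D x.2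
    have hz0 : z ≠ 0 := fun h0 => hx (Subtype.ext (qExpand_injective (M0 * N')
      (by rw [hzx, h0]; simp)))
    obtain ⟨c, g, hg, hres⟩ := Mo.scaled z hz0
    rw [hMo, frameModel_res] at hres
    obtain ⟨a, b, hab, hgab⟩ := exists_gauss_of_res hres
    have hc : c ≠ 0 := by
      rintro rfl
      refine hg (Subtype.ext ?_)
      rw [zero_smul] at hres
      exact hres.unique (Specialization.Reduction.res_zero _)
    have hz : ((c • z : P'.fld (toLL κ)) : LaurentSeries LL) =
        qExpand LL (M0 * N') (HahnSeries.C c * (x : LaurentSeries LL)) := by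
      rw [Algebra.smul_def, IntermediateField.coe_mul, map_mul, qExpand_C, hzx]
      congr 1
      exact algebraMap_laurentSeries_eq_single LL c
    rw [hz] at hab
    have ha : coeffMap (residue V) a ≠ 0 := fun h0 =>
      hg (Subtype.ext (by rw [hgab, h0, zero_div]; rfl))
    obtain ⟨y, y₁, h1, h2, h3⟩ := exists_quot_of_gauss ξ hξ hab ha
    exact ⟨c, y, y₁, hc, h1, h2, h3⟩
  · intro m hm x hx hdvd y y' c hc hxy hy' hred
    obtain ⟨z, hzfix, hzx⟩ := exists_fixed_of_mem P' D x.2
    set n := M0 * N'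
    -- the substitution `q ↦ q^n`
    have hmem : ∀ w : D.F, qExpand LL n (w : LaurentSeries LL) ∈ P'.fld (toLL κ) := fun w => by
      obtain ⟨w', -, hw'⟩ := exists_fixed_of_mem P' D w.2
      rw [hw']
      exact w'.2
    let ι : D.F →ₐ[LL] P'.fld (toLL κ) :=
      ((substAlg (1 : LLˣ) n).comp D.F.val).codRestrict (P'.fld (toLL κ)).toSubalgebra fun w => by
        show substHom 1 n (w : LaurentSeries LL) ∈ P'.fld (toLL κ)
        rw [substHom_one]
        exact hmem w
    have hιx : ι x = z := Subtype.ext (by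
      show substHom 1 n (x : LaurentSeries LL) = _
      rw [substHom_one, hzx])
    letI : Algebra D.F (P'.fld (toLL κ)) := ι.toRingHom.toAlgebra
    haveI : IsScalarTower LL D.F (P'.fld (toLL κ)) :=
      IsScalarTower.of_algebraMap_eq fun a => (ι.commutes a).symm
    haveI := D.isFunctionField
    haveI : Module.Finite D.F (P'.fld (toLL κ)) := Kronecker.moduleFinite_of_functionField LL
    have hdvdz : ∀ w : Place LL (P'.fld (toLL κ)), (m : ℤ) ∣ w.ord z := fun w => by
      rw [← hιx, show ι x = algebraMap D.F (P'.fld (toLL κ)) x from rfl, w.ord_restrict]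
      exact dvd_mul_of_dvd_right (hdvd _) _
    -- the constant reduction
    have hgauss : IsGauss (residue V) (z : LaurentSeries LL) (qExpand V n y) (qExpand V n y') := by
      refine ⟨?_, ?_⟩
      · rw [coeffMap_qExpand]
        exact (map_ne_zero_iff _ (qExpand_injective n)).2 hy'
      · rw [coeffMap_qExpand, coeffMap_qExpand, ← hzx, ← map_mul, hxy]
    have hres : Mo.Res z (algebraMap (ResidueField V) (P.fld φ) c) := by
      rw [hMo, frameModel_res]
      have h1 := res_of_gauss hgauss
      rw [coeffMap_qExpand, coeffMap_qExpand, hred, map_mul, qExpand_C,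
        mul_div_assoc, div_self ((map_ne_zero_iff _ (qExpand_injective n)).2 hy'), mul_one] at h1
      convert h1 using 1
      exact algebraMap_laurentSeries_eq_single _ c
    have hm' : (m : ResidueField V) ≠ 0 := Specialization.natCast_ne_zero_residue hV hm
    have hm0 : m ≠ 0 := by rintro rfl; simp at hm'
    obtain ⟨a, w, b, hb, hzw, hwres⟩ := exists_root_of_constant
      (frameModel_smooth (π := residue V) P' (toLL κ) (toLL_surjective κ) P φ hφ h e.toRingHom he'
        hφdef.symm residue_surjective)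
      (Specialization.rankOne_residue hV) hm' hc hres hdvdz
    -- the root is fixed by translation
    set ζ := Units.map (toLL κ : κ.range →* LL) P'.ξ with hζdef
    have hζn : ζ ^ n = 1 := toLL_root_pow P'
    obtain ⟨k, -, hk⟩ : ∃ k < n, ((Units.map (V.subtype : V →* LL) ξ : LLˣ) : LL) ^ k = (ζ : LL) :=
      (hξ.map_of_injective (f := Units.coeHom LL) Units.val_injective).eq_pow_of_pow_eq_one
        (by rw [← Units.val_pow_eq_pow_val, hζn, Units.val_one])
    have hζV : ζ = Units.map (V.subtype : V →* LL) (ξ ^ k) := by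
      refine Units.ext ?_
      rw [map_pow, Units.val_pow_eq_pow_val, hk]
    have hfix : twist ζ (z : LaurentSeries LL) = (z : LaurentSeries LL) := by
      rw [← hzx, twist_fix_qExpand hζn]
    have ha0 : a ≠ 0 := by
      rintro rfl
      rw [map_zero, zero_mul] at hzw
      have h1 := hres.ne_zero ((_root_.map_ne_zero _).2 hc)
      exact h1 hzw
    rw [frameModel_res] at hwres
    have hw0 : (w : LaurentSeries LL) ≠ 0 := fun h0 => by
      rw [show w = 0 from Subtype.ext h0] at hwres
      have h1 := hwres.unique (Specialization.Reduction.res_zero _)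
      exact (_root_.map_ne_zero (algebraMap (ResidueField V) (P.fld φ))).2 hb (Subtype.ext h1)
    have hzwc : (z : LaurentSeries LL) = HahnSeries.C a * (w : LaurentSeries LL) ^ m := by
      rw [hzw, IntermediateField.coe_mul, IntermediateField.coe_pow]
      congr 1
      exact algebraMap_laurentSeries_eq_single LL a
    set w' : P'.fld (toLL κ) := P'.psi (toLL κ) (toLL_surjective κ) ModularGroup.T w
    have hw' : (w' : LaurentSeries LL) = twist ζ (w : LaurentSeries LL) := P'.coe_psi_T _ _ w
    have hwpow : ((w' / w : P'.fld (toLL κ)) : LaurentSeries LL) ^ m = 1 := by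
      rw [IntermediateField.coe_div, div_pow, div_eq_one_iff_eq (pow_ne_zero _ hw0), hw', ← map_pow]
      have h1 := hfix
      rw [hzwc, map_mul] at h1
      have h2 : twist ζ (HahnSeries.C a) = HahnSeries.C a := by
        ext i
        rcases eq_or_ne i 0 with rfl | hi
        · simp
        · simp [HahnSeries.C_apply, HahnSeries.coeff_single_of_ne hi]
      rw [h2] at h1
      exact mul_left_cancel₀ (fun h0 => ha0 (HahnSeries.C_injective (h0.trans (map_zero _).symm))) h1
    obtain ⟨χ, hχ⟩ : ∃ χ : LL, w' / w = algebraMap LL (P'.fld (toLL κ)) χ := by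
      by_contra hcon
      push Not at hcon
      refine Curves.transcendental_of_ne_algebraMap hcon
        ⟨Polynomial.X ^ m - 1, Polynomial.X_pow_sub_C_ne_zero (Nat.pos_of_ne_zero hm0) 1, ?_⟩
      rw [map_sub, map_pow, Polynomial.aeval_X, map_one, sub_eq_zero]
      exact Subtype.ext (by rw [IntermediateField.coe_pow, hwpow]; rfl)
    have hχm : χ ^ m = 1 := by
      refine (algebraMap LL (P'.fld (toLL κ))).injective ?_
      rw [map_pow, ← hχ, map_one]
      exact Subtype.ext (by rw [IntermediateField.coe_pow, hwpow]; rfl)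
    have hw'' : (w' : LaurentSeries LL) = HahnSeries.C χ * (w : LaurentSeries LL) := by
      have h1 := congrArg (fun t : P'.fld (toLL κ) => (t : LaurentSeries LL) * w) hχ
      simp only [IntermediateField.coe_div] at h1
      rw [div_mul_cancel₀ _ hw0] at h1
      rw [h1]
      congr 1
      exact algebraMap_laurentSeries_eq_single LL χ
    have hχV : χ ∈ V := by
      by_contra hχ'
      have h1 := (V.mem_or_inv_mem χ).resolve_left hχ'
      apply hχ'
      have h2 : χ = χ⁻¹ ^ (m - 1) := by
        rw [inv_pow]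
        refine eq_inv_of_mul_eq_one_left ?_
        rw [← pow_succ', Nat.sub_add_cancel (Nat.pos_of_ne_zero hm0), hχm]
      rw [h2]
      exact pow_mem h1 _
    obtain ⟨A, B, hAB, hbAB⟩ := exists_gauss_of_res hwres
    have hb' : ((algebraMap (ResidueField V) (P.fld φ) b : P.fld φ) :
        LaurentSeries (ResidueField V)) = HahnSeries.C b :=
      algebraMap_laurentSeries_eq_single _ b
    rw [hb'] at hbAB
    have hg1 : IsGauss (residue V) (w' : LaurentSeries LL) (twist (ξ ^ k) A) (twist (ξ ^ k) B) := by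
      refine ⟨?_, ?_⟩
      · rw [coeffMap_twist]; exact (map_ne_zero _).2 hAB.1
      · have hmap : ∀ F : LaurentSeries V, coeffMap V.subtype (twist (ξ ^ k) F) =
            twist ζ (coeffMap V.subtype F) := fun F => by rw [coeffMap_twist, hζV]; rfl
        rw [hw', hmap, hmap, ← map_mul, hAB.2]
    have hg2 : IsGauss (residue V) (w' : LaurentSeries LL)
        (HahnSeries.C (⟨χ, hχV⟩ : V) * A) B := by
      refine ⟨hAB.1, ?_⟩
      rw [hw'', map_mul, mul_assoc, hAB.2]
      congr 1
      rw [HahnSeries.C_apply, HahnSeries.C_apply, coeffMap_single]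
      rfl
    have heq := hg1.div_eq hg2
    rw [coeffMap_twist, coeffMap_twist, ← map_div₀, ← hbAB, map_mul, mul_div_assoc, ← hbAB,
      HahnSeries.C_apply, HahnSeries.C_apply, coeffMap_single] at heq
    have heq0 := congrArg (fun F : LaurentSeries (ResidueField V) => F.coeff 0) heq
    simp only [twist_coeff, HahnSeries.coeff_single_same, zpow_zero, Units.val_one, one_mul,
      HahnSeries.single_mul_single, add_zero] at heq0
    have hχ1 : residue V ⟨χ, hχV⟩ = 1 := mul_right_cancel₀ hb (heq0.symm.trans (one_mul b).symm)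
    have hχ0 : χ = 1 := by
      by_contra hne
      have hgeom : (∑ i ∈ Finset.range m, (⟨χ, hχV⟩ : V) ^ i) = 0 := by
        refine Subtype.ext (mul_right_cancel₀ (sub_ne_zero.2 hne) ?_)
        push_cast
        rw [geom_sum_mul, hχm, sub_self, zero_mul]
      apply hm'
      have h1 := congrArg (residue V) hgeom
      rw [map_sum, map_zero] at h1
      rw [← h1, Finset.sum_congr rfl fun i _ => show residue V ((⟨χ, hχV⟩ : V) ^ i) = 1 by
        rw [map_pow, hχ1, one_pow], Finset.sum_const, Finset.card_range, nsmul_one]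
    have hwfix : w ∈ P'.fixedFld (toLL κ) (toLL_surjective κ) (pmGamma1 n) :=
      (P'.fixed_iff_twist (toLL κ) (toLL_surjective κ) w).2 (by
        rw [← hw', hw'', hχ0, map_one, one_mul])
    obtain ⟨g, hgD, hgw⟩ := exists_mem_of_fixed P' D hwfix
    refine ⟨⟨g, hgD⟩, a, qExpand_injective n ?_⟩
    rw [hzx, hzwc, map_mul, qExpand_C, map_pow, hgw]

/-- Package C1b. -/
theorem targetGoodReduction1 : TargetGoodReduction1 := by
  intro M _ κ haux D
  obtain ⟨M0, hM, hdvd⟩ : ∃ M0, (M0 = 2 ∨ M0 = 3) ∧ M0 * M0 ∣ M := by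
    rcases haux with h | h
    · exact ⟨2, Or.inl rfl, by simpa using h⟩
    · exact ⟨3, Or.inr rfl, by simpa using h⟩
  obtain ⟨N', rfl⟩ : M0 ∣ M := (dvd_mul_right M0 M0).trans hdvd
  haveI : NeZero M0 := ⟨by rcases hM with rfl | rfl <;> omega⟩
  haveI : NeZero N' := ⟨fun h => NeZero.ne (M0 * N') (by rw [h, mul_zero])⟩
  have hn : 3 ≤ M0 * N' := by
    have := Nat.le_of_dvd (Nat.pos_of_ne_zero (NeZero.ne (M0 * N'))) hdvd
    rcases hM with rfl | rfl <;> omega
  exact goodReduction1_at hM hn D

end FLTAgent.DeligneSerre
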