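import Fermat.Agent.DeligneSerre.Field.Degree
import Fermat.Agent.DeligneSerre.Smooth.Coordinate

/-!
# The group `±Γ(n)`, generators of the full level field and their separation

The coordinate and the functions `fvv` at all vectors separate the cosets of `±Γ(n)` after any
reduction prime to the level, and have differences which are units off the cusps.
-/

set_option autoImplicit false
set_option linter.unusedSectionVars false
set_option linter.style.haveILetI false

noncomputable section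

open UpperHalfPlane hiding I I_re I_im
open Filter Topology Complex Function FLTAgent.ModEq FLTAgent.GoodModel ModularCurve
open scoped MatrixGroups IntermediateField

namespace FLTAgent.DeligneSerre

/-- The group `±Γ(n)`. -/
def pmGamma (n : ℕ) : Subgroup SL(2, ℤ) where
  carrier := {g | g ∈ CongruenceSubgroup.Gamma n ∨ -g ∈ CongruenceSubgroup.Gamma n}
  one_mem' := Or.inl (one_mem _)
  mul_mem' {a b} ha hb := by
    rcases ha with ha | ha <;> rcases hb with hb | hb
    · exact Or.inl (mul_mem ha hb)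
    · exact Or.inr (by rw [← mul_neg]; exact mul_mem ha hb)
    · exact Or.inr (by rw [← neg_mul]; exact mul_mem ha hb)
    · exact Or.inl (by rw [← neg_mul_neg]; exact mul_mem ha hb)
  inv_mem' {a} ha := by
    rcases ha with ha | ha
    · exact Or.inl (inv_mem ha)
    · refine Or.inr ?_
      have h : (-a)⁻¹ = -a⁻¹ := inv_eq_of_mul_eq_one_right (by rw [neg_mul_neg, mul_inv_cancel])
      rw [← h]
      exact inv_mem ha

theorem mem_pmGamma {n : ℕ} {g : SL(2, ℤ)} :
    g ∈ pmGamma n ↔ g ∈ CongruenceSubgroup.Gamma n ∨ -g ∈ CongruenceSubgroup.Gamma n := Iff.rfl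

theorem Gamma_le_pmGamma (n : ℕ) : CongruenceSubgroup.Gamma n ≤ pmGamma n := fun _ h => Or.inl h

instance pmGamma_normal (n : ℕ) : (pmGamma n).Normal where
  conj_mem g hg x := by
    rcases hg with hg | hg
    · exact Or.inl ((CongruenceSubgroup.Gamma_normal n).conj_mem g hg x)
    · refine Or.inr ?_
      rw [← neg_mul, ← mul_neg]
      exact (CongruenceSubgroup.Gamma_normal n).conj_mem _ hg x

instance pmGamma_finiteIndex (n : ℕ) [NeZero n] : (pmGamma n).FiniteIndex :=
  Subgroup.finiteIndex_of_le (Gamma_le_pmGamma n)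

theorem pmGamma_mono {m n : ℕ} (h : m ∣ n) : pmGamma n ≤ pmGamma m := by
  have key : ∀ g : SL(2, ℤ), g ∈ CongruenceSubgroup.Gamma n → g ∈ CongruenceSubgroup.Gamma m := by
    intro g hg
    rw [CongruenceSubgroup.Gamma_mem] at hg ⊢
    obtain ⟨h1, h2, h3, h4⟩ := hg
    refine ⟨?_, ?_, ?_, ?_⟩
    · have := congrArg (ZMod.castHom h (ZMod m)) h1
      rwa [map_intCast, map_one] at this
    · have := congrArg (ZMod.castHom h (ZMod m)) h2
      rwa [map_intCast, map_zero] at this
    · have := congrArg (ZMod.castHom h (ZMod m)) h3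
      rwa [map_intCast, map_zero] at this
    · have := congrArg (ZMod.castHom h (ZMod m)) h4
      rwa [map_intCast, map_one] at this
  exact fun g hg => hg.imp (key g) (key (-g))

theorem vmul_neg_right (v : Vec) (g : SL(2, ℤ)) : vmul v (-g) = -vmul v g := by
  ext <;> simp [vmul] <;> ring

theorem smul_neg_one (g : SL(2, ℤ)) (τ : ℍ) : (-g) • τ = g • τ := ModularGroup.SL_neg_smul g τ

theorem compg_neg (g : SL(2, ℤ)) (f : ℍ → ℂ) : compg (-g) f = compg g f := by
  funext τ
  simp only [compg_apply, smul_neg_one]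

variable {S : Subring ℂ} {n : ℕ}

theorem transl_of_mem_pmGamma {g : SL(2, ℤ)} (hg : g ∈ pmGamma n) (f : modRing S n) :
    transl g f = f := by
  rcases hg with hg | hg
  · exact transl_of_mem_Gamma hg f
  · refine Subtype.ext ?_
    rw [coe_transl, ← compg_neg, ← coe_transl, transl_of_mem_Gamma hg]

/-- Every function of level `n` is invariant under `±Γ(n)`. -/
def toInv : modRing S n →+* invRing (S := S) (M := n) (pmGamma n) :=
  (RingHom.id (modRing S n)).codRestrict _ fun f =>
    mem_invRing.mpr fun _ hg => transl_of_mem_pmGamma hg f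

@[simp] theorem coe_toInv (f : modRing S n) : (toInv f : modRing S n) = f := rfl

theorem vEq_vmul_of_mem_Gamma {g : SL(2, ℤ)} (hg : g ∈ CongruenceSubgroup.Gamma n) (v : Vec) :
    VEq n (vmul v g) v := by
  obtain ⟨h1, h2, h3, h4⟩ := CongruenceSubgroup.Gamma_mem.mp hg
  constructor <;> simp [vmul, h1, h2, h3, h4]

/-- An element outside `±Γ(n)` moves some vector. -/
theorem exists_moved (hn : 3 ≤ n) {g : SL(2, ℤ)} (hg : g ∉ pmGamma n) :
    ∃ p : Vec, Nz n p ∧ ¬ PMEq n (vmul p g) p := by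
  by_contra! h
  have h1 : (1 : ZMod n) ≠ 0 := fun e => by
    have := (ZMod.natCast_eq_zero_iff 1 n).mp (by simpa using e)
    have := Nat.le_of_dvd one_pos this
    omega
  have h2 : (1 : ZMod n) ≠ -1 := fun e => by
    have := (ZMod.natCast_eq_zero_iff 2 n).mp (by push_cast; linear_combination e)
    have := Nat.le_of_dvd two_pos this
    omega
  have ha := h (1, 0) (Or.inl (by simpa using h1))
  have hb := h (0, 1) (Or.inr (by simpa using h1))
  have hc := h (1, 1) (Or.inl (by simpa using h1))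
  simp only [PMEq, VEq, vmul, Prod.neg_mk] at ha hb hc
  push_cast at ha hb hc
  simp only [one_mul, zero_mul, add_zero, zero_add, neg_zero] at ha hb hc
  refine hg ?_
  rcases ha with ⟨a1, a2⟩ | ⟨a1, a2⟩ <;> rcases hb with ⟨b1, b2⟩ | ⟨b1, b2⟩
  · exact Or.inl (CongruenceSubgroup.Gamma_mem.mpr ⟨a1, a2, b1, b2⟩)
  · exfalso
    rw [a1, a2, b1, b2] at hc
    rcases hc with ⟨-, c2⟩ | ⟨c1, -⟩
    · exact h2 (by linear_combination -c2)
    · exact h2 (by linear_combination c1)
  · exfalso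
    rw [a1, a2, b1, b2] at hc
    rcases hc with ⟨c1, -⟩ | ⟨-, c2⟩
    · exact h2 (by linear_combination -c1)
    · exact h2 (by linear_combination c2)
  · refine Or.inr (CongruenceSubgroup.Gamma_mem.mpr ?_)
    simp [a1, a2, b1, b2]

/-! ### Representatives of the cosets of `±Γ(M₀)` -/

/-- Representatives of the cosets of `±Γ(M₀)`. -/
def baseRep (M0 : ℕ) : Option (Fin M0) × Fin M0 → SL(2, ℤ)
  | (none, k) => ModularGroup.T ^ ((k : ℕ) : ℤ)
  | (some i, k) => cuspRep0 M0 i * ModularGroup.T ^ ((k : ℕ) : ℤ)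

/-- The reductions of `baseRep` modulo `M₀`. -/
def repMat (M0 : ℕ) : Option (Fin M0) × Fin M0 → (ZMod M0 × ZMod M0) × (ZMod M0 × ZMod M0)
  | (none, k) => ((1, (k : ℕ)), (0, 1))
  | (some i, k) => if (i : ℕ) = 0 then ((0, -1), (1, (k : ℕ)))
      else ((1, (k : ℕ)), ((i : ℕ), (i : ℕ) * (k : ℕ) + 1))

theorem baseRep_entries (M0 : ℕ) (x : Option (Fin M0) × Fin M0) :
    ((((baseRep M0 x 0 0 : ℤ) : ZMod M0), ((baseRep M0 x 0 1 : ℤ) : ZMod M0)),
      (((baseRep M0 x 1 0 : ℤ) : ZMod M0), ((baseRep M0 x 1 1 : ℤ) : ZMod M0))) = repMat M0 x := by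
  obtain ⟨_ | i, k⟩ := x
  · simp only [baseRep, repMat, ModularGroup.coe_T_zpow]
    simp
  · simp only [baseRep, repMat, cuspRep0, Matrix.SpecialLinearGroup.coe_mul,
      ModularGroup.coe_T_zpow]
    split_ifs <;> simp [lowT, ModularGroup.S, Matrix.mul_apply, Fin.sum_univ_two]

theorem baseRep_injective {M0 : ℕ} [NeZero M0] (hM : M0 = 2 ∨ M0 = 3)
    (a b : Option (Fin M0) × Fin M0) (h : (baseRep M0 a)⁻¹ * baseRep M0 b ∈ pmGamma M0) :
    a = b := by
  set x := baseRep M0 a
  set y := baseRep M0 b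
  have key : (∀ i j, ((x i j : ℤ) : ZMod M0) = (y i j : ℤ)) ∨
      (∀ i j, ((x i j : ℤ) : ZMod M0) = -((y i j : ℤ) : ZMod M0)) := by
    rcases h with h | h <;> rw [CongruenceSubgroup.Gamma_mem'] at h
    · left
      rw [map_mul, map_inv, inv_mul_eq_one] at h
      exact fun i j => congrFun (congrFun (congrArg Subtype.val h) i) j
    · right
      rw [← mul_neg, map_mul, map_inv, inv_mul_eq_one] at h
      intro i j
      have h' := congrFun (congrFun (congrArg Subtype.val h) i) j
      simpa using h'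
  have hab : repMat M0 a = repMat M0 b ∨ repMat M0 a = -repMat M0 b := by
    rw [← baseRep_entries, ← baseRep_entries]
    rcases key with k | k <;> [left; right] <;> simp [x, y, k]
  revert hab
  clear h key
  revert a b
  rcases hM with rfl | rfl <;> simp only [repMat] <;> decide

/-! ### Generators -/

variable [NeZero n] (ζ : Sˣ) (hζ : ((ζ : S) : ℂ) = zetaN n) (hu : IsUnit ((n : ℕ) : S))

include ζ hζ hu in
theorem wq_mem_modRing {p e a b : Vec} (hp : Nz n p) (he : Nz n e) (ha : Nz n a) (hb : Nz n b)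
    (hab : ¬ PMEq n a b) : wq n p e a b ∈ modRing S n := by
  refine ⟨wq_mem ζ hζ hu hp he ha hb hab, fun γ hγ τ => ?_⟩
  show compg γ (wq n p e a b) τ = _
  rw [compg_wq]
  simp only [wq]
  rw [wdiff_congr (Or.inl (vEq_vmul_of_mem_Gamma hγ p)) (Or.inl (vEq_vmul_of_mem_Gamma hγ e)),
    wdiff_congr (Or.inl (vEq_vmul_of_mem_Gamma hγ a)) (Or.inl (vEq_vmul_of_mem_Gamma hγ b))]

section Generators

variable {M0 N' : ℕ} [NeZero M0] [NeZero N'] [NeZero (M0 * N')] (hM : M0 = 2 ∨ M0 = 3)
  (ξ : Sˣ) (hξ : ((ξ : S) : ℂ) = zetaN (M0 * N')) (hv : IsUnit ((M0 * N' : ℕ) : S))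
  (C : Coordinate S M0 N')

/-- The coordinate as a function of level `n`. -/
def hhM : modRing S (M0 * N') := ⟨hh M0, C.mem, fun γ hγ τ => by
  obtain hγ' | hγ' := pmGamma_mono (dvd_mul_right M0 N') (Gamma_le_pmGamma _ hγ)
  · exact hh_invariant hγ' τ
  · rw [← smul_neg_one]; exact hh_invariant hγ' τ⟩

@[simp] theorem coe_hhM : (hhM C : ℍ → ℂ) = hh M0 := rfl

theorem serM_hhM : serM (hhM C) = C.H := serM_eq C.pair

theorem transl_hhM {g : SL(2, ℤ)} (hg : g ∈ pmGamma M0) : transl g (hhM C) = hhM C := by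
  refine Subtype.ext (funext fun τ => ?_)
  rw [transl_apply, coe_hhM]
  rcases hg with hg | hg
  · exact hh_invariant hg τ
  · rw [← smul_neg_one]; exact hh_invariant hg τ

/-- The coordinate functions at vectors. -/
def fvvM (p : {p : Vec // Nz (M0 * N') p}) : modRing S (M0 * N') :=
  ⟨fvv (M0 * N') N' p.1, wq_mem_modRing ξ hξ hv p.2 (level_nz hM rfl).1 (level_nz hM rfl).2.1
    (level_nz hM rfl).2.2.1 (level_nz hM rfl).2.2.2.1⟩

theorem transl_fvvM {g : SL(2, ℤ)} (hg : g ∈ pmGamma M0) (p : {p : Vec // Nz (M0 * N') p}) :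
    (transl g (fvvM hM ξ hξ hv p) : ℍ → ℂ) = fvv (M0 * N') N' (vmul p.1 g) := by
  rw [coe_transl]
  rcases hg with hg | hg
  · exact compg_fvv rfl hg p.1
  · rw [← compg_neg]
    refine (compg_fvv rfl hg p.1).trans ?_
    rw [fvv_congr_iff hM rfl (p.2.vmul _) (p.2.vmul _), vmul_neg_right]
    exact Or.inr ⟨rfl, rfl⟩

/-- Two translates at different classes differ by a unit. -/
theorem exists_inv_sub {g g' : SL(2, ℤ)} (hg : g ∈ pmGamma M0) (hg' : g' ∈ pmGamma M0)
    (p : {p : Vec // Nz (M0 * N') p}) (h : ¬ PMEq (M0 * N') (vmul p.1 g) (vmul p.1 g')) :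
    ∃ w : modRing S (M0 * N'),
      (transl g (fvvM hM ξ hξ hv p) - transl g' (fvvM hM ξ hξ hv p)) * w = 1 := by
  obtain ⟨he, ha, hb, hab, -⟩ := level_nz (n := M0 * N') (N' := N') hM rfl
  have hp := p.2.vmul g
  have hp' := p.2.vmul g'
  refine ⟨⟨wq (M0 * N') (aVec N') (bVec N') (vmul p.1 g) (vmul p.1 g'),
    wq_mem_modRing ξ hξ hv ha hb hp hp' h⟩, Subtype.ext (funext fun τ ↦ ?_)⟩
  have h1 : wdiff (M0 * N') (aVec N') (bVec N') τ ≠ 0 := fun e ↦
    hab ((wdiff_eq_zero_iff ha hb τ).mp e)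
  have h2 : wdiff (M0 * N') (vmul p.1 g) (vmul p.1 g') τ ≠ 0 := fun e ↦
    h ((wdiff_eq_zero_iff hp hp' τ).mp e)
  simp only [Subring.coe_mul, AddSubgroupClass.coe_sub, Pi.mul_apply, Pi.sub_apply,
    transl_fvvM hM ξ hξ hv hg, transl_fvvM hM ξ hξ hv hg', Subring.coe_one, Pi.one_apply]
  rw [show fvv (M0 * N') N' (vmul p.1 g) τ - fvv (M0 * N') N' (vmul p.1 g') τ =
      wq (M0 * N') (vmul p.1 g) (vmul p.1 g') (aVec N') (bVec N') τ by
    simp only [fvv, wq, wdiff]; rw [← sub_div]; ring]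
  simp only [wq]
  field_simp

/-- The generators of the field of level `n`. -/
def fullGens : Set (invRing (S := S) (M := M0 * N') (pmGamma (M0 * N'))) :=
  insert (toInv (hhM C)) (Set.range fun p => toInv (fvvM hM ξ hξ hv p))

variable {K : Type} [Field K] (φ : S →+* K)

theorem red_transl_hhM_ne {g : SL(2, ℤ)} (hg : g ∉ pmGamma M0) :
    red φ (transl g (hhM C)) ≠ red φ (hhM C) := by
  rw [mem_pmGamma, not_or] at hg
  obtain ⟨G, hG, -⟩ := C.cusp g
  rw [red_eq φ (f := transl g (hhM C)) (G := G) hG, red_eq φ (f := hhM C) C.pair]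
  exact C.sep g hg.1 hg.2 G hG φ

theorem separates_fullGens (hn : 3 ≤ M0 * N') : Separates φ (fullGens hM ξ hξ hv C) := by
  intro g hg
  have hg0 : g ∈ pmGamma M0 := by
    by_contra h
    have h' := hg (toInv (hhM C)) (by unfold fullGens; exact Set.mem_insert _ _)
    rw [coe_toInv] at h'
    exact red_transl_hhM_ne C φ h h'
  by_contra hgn
  obtain ⟨p, hp, hmov⟩ := exists_moved hn hgn
  obtain ⟨w, hw⟩ := exists_inv_sub hM ξ hξ hv hg0 (one_mem _) ⟨p, hp⟩ (by rwa [vmul_one])
  have h := congrArg (red φ) hw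
  rw [map_mul, map_sub, transl_one] at h
  have hgf := hg (toInv (fvvM hM ξ hξ hv ⟨p, hp⟩))
    (by unfold fullGens; exact Set.mem_insert_of_mem _ (Set.mem_range_self _))
  rw [coe_toInv] at hgf
  rw [hgf, sub_self, zero_mul, map_one] at h
  exact zero_ne_one h

end Generators

end FLTAgent.DeligneSerre
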